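import Mathlib.RingTheory.Valuation.Basic
import Mathlib.Algebra.Order.Group.Finset
import Mathlib.Data.Int.GCD
import Mathlib.Data.Nat.Prime.Int
import Mathlib.Tactic

set_option autoImplicit false

/-! # Valuations of the multiples of a torsion point on a nodal reduction -/

namespace Fermat.Agent.EC

variable {K : Type*} [Field K] {Γ₀ : Type*} [LinearOrderedCommGroupWithZero Γ₀]

/-- The valuations of `x(nP) - e₁` for a point `P` of odd prime order `p = 2h+1` all of whose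
multiples are in the annulus `V < v(x - e₁) < 1`. Version where `F 1` is maximal. -/
theorem annulus_aux (v : Valuation K Γ₀) (h : ℕ) (z : ℤ → K) (c : K) (V : Γ₀) (hc : v c = V)
    (R1 : ∀ m n : ℤ, ¬ ((2*h+1 : ℕ) : ℤ) ∣ m → ¬ ((2*h+1 : ℕ) : ℤ) ∣ n →
      ¬ ((2*h+1 : ℕ) : ℤ) ∣ m + n → ¬ ((2*h+1 : ℕ) : ℤ) ∣ m - n →
      v (z (m + n)) * v (z (m - n)) * v (z m - z n)^2 = v (z m * z n - c)^2)
    (R2 : ∀ n : ℤ, ¬ ((2*h+1 : ℕ) : ℤ) ∣ n → v (z (2 * n)) * v (z n)^2 = v (z n ^2 - c)^2)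
    (R3 : ∀ n : ℤ, ¬ ((2*h+1 : ℕ) : ℤ) ∣ n → V < v (z n) ∧ v (z n) < 1)
    (R4 : z (h + 1) = z h)
    (hh : 1 ≤ h)
    (hmax : ∀ n : ℤ, ¬ ((2*h+1 : ℕ) : ℤ) ∣ n → v (z n) ≤ v (z 1)) :
    v (z 1) ^ (2 * h + 1) = V ^ 2 ∧ ∀ n : ℕ, 1 ≤ n → n ≤ h → v (z n) = v (z 1) ^ n := by
  have nd : ∀ n : ℤ, 1 ≤ n → n ≤ 2 * h → ¬ ((2*h+1 : ℕ) : ℤ) ∣ n := by
    intro n h1 h2 hd
    have := Int.le_of_dvd (by omega) hd
    push_cast at this
    omega
  set μ := v (z 1) with hμ
  have hμV : V < μ := (R3 1 (nd 1 le_rfl (by omega))).1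
  have hμ1 : μ < 1 := (R3 1 (nd 1 le_rfl (by omega))).2
  have hμ0 : 0 < μ := lt_of_le_of_lt zero_le hμV
  -- Claim A
  have claimA : ∀ n : ℕ, 1 ≤ n → n ≤ h + 1 → V < μ ^ n → v (z n) = μ ^ n := by
    intro n
    induction n using Nat.strong_induction_on with
    | _ n ih =>
      intro h1 h2 hV
      rcases Nat.lt_or_ge 1 n with hn | hn
      · rcases Nat.lt_or_ge 2 n with hn2 | hn2
        · -- n ≥ 3
          obtain ⟨k, rfl⟩ : ∃ k, n = k + 1 := ⟨n - 1, by omega⟩
          have hk1 : V < μ ^ k := lt_of_lt_of_le hV (pow_le_pow_right_of_le_one' hμ1.le (by omega))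
          have hk2 : V < μ ^ (k - 1) :=
            lt_of_lt_of_le hV (pow_le_pow_right_of_le_one' hμ1.le (by omega))
          have e1 := ih k (by omega) (by omega) (by omega) hk1
          have e2 := ih (k - 1) (by omega) (by omega) (by omega) hk2
          have r := R1 k 1 (nd _ (by omega) (by omega)) (nd _ (by omega) (by omega))
            (nd _ (by omega) (by omega)) (nd _ (by omega) (by omega))
          have c1 : ((k : ℤ) - 1) = ((k - 1 : ℕ) : ℤ) := by omega
          have hlt : μ ^ k < μ := by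
            calc μ ^ k ≤ μ ^ 2 := pow_le_pow_right_of_le_one' hμ1.le (by omega)
              _ < μ := by
                rw [pow_two]
                exact mul_lt_of_lt_one_right hμ0 hμ1
          have d1 : v (z k - z 1) = μ := by
            rw [Valuation.map_sub_eq_of_lt_right _ (by rw [e1]; exact hlt)]
          have d2 : v (z k * z 1 - c) = μ ^ (k + 1) := by
            have : v (z k * z 1) = μ ^ (k + 1) := by rw [map_mul, e1, pow_succ]
            rw [Valuation.map_sub_eq_of_lt_left _ (by rw [this, hc]; exact hV), this]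
          rw [c1, e2, d1, d2] at r
          have hk : μ ^ (k - 1) * μ ^ 2 = μ ^ (k + 1) := by
            rw [← pow_add]; congr 1; omega
          have hpos : μ ^ (k + 1) ≠ 0 := pow_ne_zero _ hμ0.ne'
          push_cast
          have : v (z ((k : ℤ) + 1)) * μ ^ (k + 1) = μ ^ (k+1) * μ ^ (k + 1) := by
            rw [← sq (μ ^ (k + 1)), ← r, mul_assoc, hk]
          exact mul_right_cancel₀ hpos this
        · -- n = 2
          have hn : n = 2 := by omega
          subst hn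
          have r := R2 1 (nd _ (by omega) (by omega))
          have d2 : v (z 1 ^ 2 - c) = μ ^ 2 := by
            have : v (z 1 ^ 2) = μ ^ 2 := by rw [map_pow]
            rw [Valuation.map_sub_eq_of_lt_left _ (by rw [this, hc]; exact hV), this]
          rw [d2, mul_one] at r
          have hpos : μ ^ 2 ≠ 0 := pow_ne_zero _ hμ0.ne'
          have : v (z 2) * μ ^ 2 = μ ^ 2 * μ ^ 2 := by rw [← sq (μ ^ 2)]; exact r
          exact_mod_cast mul_right_cancel₀ hpos this
      · have : n = 1 := by omega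
        subst this
        simp [hμ]
  have hnot : ¬ V < μ ^ (h + 1) := by
    intro hlt
    have e1 := claimA (h + 1) (by omega) le_rfl hlt
    have e2 := claimA h hh (by omega)
      (lt_of_lt_of_le hlt (pow_le_pow_right_of_le_one' hμ1.le (by omega)))
    push_cast at e1
    rw [R4, e2] at e1
    have : μ ^ (h + 1) < μ ^ h := by
      rw [pow_succ]
      exact mul_lt_of_lt_one_right (pow_pos hμ0 h) hμ1
    rw [e1] at this
    exact lt_irrefl _ this
  -- the first exponent where we cross `V`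
  obtain ⟨m, hm1, hmh, hmV, hmV'⟩ : ∃ m : ℕ, 1 ≤ m ∧ m ≤ h ∧ V < μ ^ m ∧ μ ^ (m + 1) ≤ V := by
    have hex : ∃ n : ℕ, μ ^ (n + 1) ≤ V := ⟨h, not_lt.mp hnot⟩
    classical
    let m := Nat.find hex
    have hm := Nat.find_spec hex
    have hmin : ∀ k < m, ¬ μ ^ (k + 1) ≤ V := fun k hk => Nat.find_min hex hk
    have hm0 : m ≠ 0 := by
      intro h0
      have h1 : μ ^ (m + 1) ≤ V := hm
      rw [h0, zero_add, pow_one] at h1
      exact absurd h1 (not_le.mpr hμV)
    refine ⟨m, by omega, Nat.find_min' hex (not_lt.mp hnot), ?_, hm⟩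
    have := hmin (m - 1) (by omega)
    rw [not_le] at this
    have e : m - 1 + 1 = m := by omega
    rwa [e] at this
  have em : v (z m) = μ ^ m := claimA m hm1 (by omega) hmV
  -- Claim B
  have hB : v (z (m + 1)) * μ ^ (m + 1) = v (z m * z 1 - c) ^ 2 := by
    rcases Nat.lt_or_ge 1 m with hm2 | hm2
    · have r := R1 m 1 (nd _ (by omega) (by omega)) (nd _ (by omega) (by omega))
            (nd _ (by omega) (by omega)) (nd _ (by omega) (by omega))
      have c1 : ((m : ℤ) - 1) = ((m - 1 : ℕ) : ℤ) := by omega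
      have hlt : μ ^ m < μ := by
        calc μ ^ m ≤ μ ^ 2 := pow_le_pow_right_of_le_one' hμ1.le (by omega)
          _ < μ := by
            rw [pow_two]
            exact mul_lt_of_lt_one_right hμ0 hμ1
      have d1 : v (z m - z 1) = μ := by
        rw [Valuation.map_sub_eq_of_lt_right _ (by rw [em]; exact hlt)]
      have e2 := claimA (m - 1) (by omega) (by omega)
        (lt_of_lt_of_le hmV (pow_le_pow_right_of_le_one' hμ1.le (by omega)))
      have hk : μ ^ (m - 1) * μ ^ 2 = μ ^ (m + 1) := by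
        rw [← pow_add]; congr 1; omega
      rw [c1, e2, d1, mul_assoc, hk] at r
      exact r
    · have hm2 : m = 1 := by omega
      subst hm2
      have r := R2 1 (nd _ (by omega) (by omega))
      simp only [Nat.cast_one]
      rw [sq] at r ⊢
      have h2 : (1 : ℤ) + 1 = 2 * 1 := by norm_num
      rw [h2]
      simpa [sq] using r
  have hmul : v (z m * z 1) = μ ^ (m + 1) := by rw [map_mul, em, pow_succ]
  have hle : v (z m * z 1 - c) ≤ V := v.map_sub_le (by rw [hmul]; exact hmV') hc.le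
  have hR3 := R3 (m + 1) (nd _ (by omega) (by omega))
  have hV0 : V ≠ 0 := by
    rintro rfl
    exact absurd hmV' (not_le.mpr (pow_pos hμ0 _))
  have hVpos : 0 < V := zero_lt_iff.mpr hV0
  have hμm1 : 0 < μ ^ (m + 1) := pow_pos hμ0 _
  have hstrict : μ ^ (m + 1) < V := by
    have h1 : V * μ ^ (m + 1) < V * V := by
      calc V * μ ^ (m + 1) < v (z (m + 1)) * μ ^ (m + 1) := mul_lt_mul_of_pos_right hR3.1 hμm1
        _ = v (z m * z 1 - c) ^ 2 := hB
        _ ≤ V ^ 2 := pow_le_pow_left' hle 2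
        _ = V * V := sq V
    exact lt_of_mul_lt_mul_left h1 hVpos.le
  have heq : v (z m * z 1 - c) = V := by
    rw [Valuation.map_sub_eq_of_lt_right _ (by rw [hmul, hc]; exact hstrict), hc]
  rw [heq] at hB
  -- now `m = h`
  have hmh' : m = h := by
    by_contra hne
    have hlt : m < h := lt_of_le_of_ne hmh hne
    have r := R1 (m + 1) m (nd _ (by omega) (by omega)) (nd _ (by omega) (by omega))
      (nd _ (by omega) (by omega)) (nd _ (by omega) (by omega))
    have c1 : (m : ℤ) + 1 - m = 1 := by ring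
    rw [c1] at r
    set D := v (z (m + 1) - z m) with hD
    have h1 : v (z (m + 1) * z m) < V := by
      rw [map_mul, em]
      have h2 : v (z (m + 1)) * μ ^ m * μ = V * V := by
        rw [mul_assoc, ← pow_succ, hB, sq]
      have h3 : v (z (m + 1)) * μ ^ m * μ < V * μ := by
        rw [h2]; exact mul_lt_mul_of_pos_left hμV hVpos
      exact lt_of_mul_lt_mul_right h3 hμ0.le
    have h2 : v (z (m + 1) * z m - c) = V := by
      rw [Valuation.map_sub_eq_of_lt_right _ (by rw [hc]; exact h1), hc]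
    rw [h2] at r
    have h3 : v (z (m + 1 + m)) ≤ μ := hmax _ (nd _ (by omega) (by omega))
    have h4 : V ≤ μ * D := by
      have : V ^ 2 ≤ (μ * D) ^ 2 := by
        rw [← r, mul_pow, sq μ]
        gcongr
      exact (pow_le_pow_iff_left₀ hVpos.le zero_le two_ne_zero).mp this
    rcases le_max_iff.mp (v.map_sub (z (m + 1)) (z m)) with h5 | h5
    · -- D ≤ v (z (m+1))
      have h6 : V * μ ^ m ≤ V * V := by
        calc V * μ ^ m ≤ (μ * D) * μ ^ m := by gcongr
          _ ≤ (μ * v (z (m + 1))) * μ ^ m := by gcongr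
          _ = v (z (m+1)) * μ ^ (m + 1) := by rw [pow_succ, mul_comm μ, mul_assoc, mul_comm μ]
          _ = V * V := by rw [hB, sq]
      exact absurd (le_of_mul_le_mul_left h6 hVpos) (not_le.mpr hmV)
    · have h6 : V ≤ μ ^ (m + 1) := by
        calc V ≤ μ * D := h4
          _ ≤ μ * v (z m) := by gcongr
          _ = μ ^ (m + 1) := by rw [em, pow_succ, mul_comm]
      exact absurd h6 (not_le.mpr hstrict)
  subst hmh'
  refine ⟨?_, ?_⟩
  · rw [← hB, R4, em, ← pow_add]
    congr 1; omega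
  · intro n h1 h2
    exact claimA n h1 (by omega) (lt_of_lt_of_le hmV (pow_le_pow_right_of_le_one' hμ1.le h2))

theorem annulus (v : Valuation K Γ₀) (h : ℕ) (z : ℤ → K) (c : K) (V : Γ₀) (hc : v c = V)
    (hp : (2*h+1).Prime)
    (R1 : ∀ m n : ℤ, ¬ ((2*h+1 : ℕ) : ℤ) ∣ m → ¬ ((2*h+1 : ℕ) : ℤ) ∣ n →
      ¬ ((2*h+1 : ℕ) : ℤ) ∣ m + n → ¬ ((2*h+1 : ℕ) : ℤ) ∣ m - n →
      v (z (m + n)) * v (z (m - n)) * v (z m - z n)^2 = v (z m * z n - c)^2)
    (R2 : ∀ n : ℤ, ¬ ((2*h+1 : ℕ) : ℤ) ∣ n → v (z (2 * n)) * v (z n)^2 = v (z n ^2 - c)^2)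
    (R3 : ∀ n : ℤ, ¬ ((2*h+1 : ℕ) : ℤ) ∣ n → V < v (z n) ∧ v (z n) < 1)
    (Rper : ∀ n : ℤ, z (n + (2*h+1 : ℕ)) = z n) (Rneg : ∀ n : ℤ, z (-n) = z n) :
    ∃ μ : Γ₀, μ ^ (2*h+1) = V ^ 2 ∧ ∃ j : ℕ, v (z 1) = μ ^ j := by
  have hh : 1 ≤ h := by
    by_contra hcon
    have : h = 0 := by omega
    subst this
    exact absurd hp (by norm_num)
  have hprime : Prime ((2*h+1 : ℕ) : ℤ) := Nat.prime_iff_prime_int.mp hp
  have Rper' : ∀ n t : ℤ, z (n + (2*h+1 : ℕ) * t) = z n := by
    intro n t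
    induction t with
    | zero => simp
    | succ i ih =>
      rw [mul_add, mul_one, ← add_assoc, Rper, ih]
    | pred i ih =>
      rw [← ih, ← Rper (n + (2*h+1 : ℕ) * (-(i : ℤ) - 1))]
      congr 1; ring
  -- choose `k` maximizing
  obtain ⟨k, hk, hkmax⟩ := Finset.exists_max_image (Finset.Icc (1 : ℕ) (2 * h))
    (fun n => v (z n)) ⟨1, by simp; omega⟩
  rw [Finset.mem_Icc] at hk
  have hkd : ¬ ((2*h+1 : ℕ) : ℤ) ∣ (k : ℤ) := by
    intro hd
    have := Int.le_of_dvd (by omega) hd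
    push_cast at this
    omega
  have hmax' : ∀ n : ℤ, ¬ ((2*h+1 : ℕ) : ℤ) ∣ n → v (z n) ≤ v (z k) := by
    intro n hn
    have hmod : n = n % ((2*h+1 : ℕ) : ℤ) + ((2*h+1 : ℕ) : ℤ) * (n / ((2*h+1 : ℕ) : ℤ)) :=
      (Int.emod_add_mul_ediv n _).symm
    rw [hmod, Rper']
    have h1 : 0 ≤ n % ((2*h+1 : ℕ) : ℤ) := Int.emod_nonneg _ (by omega)
    have h2 : n % ((2*h+1 : ℕ) : ℤ) < ((2*h+1 : ℕ) : ℤ) := Int.emod_lt_of_pos _ (by omega)
    have h3 : n % ((2*h+1 : ℕ) : ℤ) ≠ 0 := fun h0 => hn (Int.dvd_of_emod_eq_zero h0)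
    obtain ⟨r, hr⟩ := Int.eq_ofNat_of_zero_le h1
    rw [hr] at h2 h3 ⊢
    exact hkmax r (by rw [Finset.mem_Icc]; push_cast at h2; omega)
  have hndmul : ∀ n : ℤ, ¬ ((2*h+1 : ℕ) : ℤ) ∣ n → ¬ ((2*h+1 : ℕ) : ℤ) ∣ k * n := by
    intro n hn hd
    rcases hprime.dvd_or_dvd hd with h | h
    · exact hkd h
    · exact hn h
  have key := annulus_aux v h (fun n => z (k * n)) c V hc
    (by
      intro m n hm hn hmn hmn'
      have e1 : (k : ℤ) * (m + n) = k * m + k * n := by ring
      have e2 : (k : ℤ) * (m - n) = k * m - k * n := by ring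
      simp only [e1, e2]
      apply R1 _ _ (hndmul _ hm) (hndmul _ hn)
      · rw [← e1]; exact hndmul _ hmn
      · rw [← e2]; exact hndmul _ hmn')
    (by
      intro n hn
      have e1 : (k : ℤ) * (2 * n) = 2 * (k * n) := by ring
      simp only [e1]
      exact R2 _ (hndmul _ hn))
    (fun n hn => R3 _ (hndmul _ hn))
    (by
      have e1 : (k : ℤ) * (h + 1) = -(k * h) + (2*h+1 : ℕ) * k := by push_cast; ring
      simp only [e1]
      rw [Rper', Rneg])
    hh
    (by
      intro n hn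
      simp only [mul_one]
      exact hmax' _ (hndmul _ hn))
  simp only [mul_one] at key
  refine ⟨v (z k), key.1, ?_⟩
  -- inverse of `k`
  have hcop : Nat.Coprime k (2*h+1) := by
    rw [Nat.coprime_comm, Nat.Prime.coprime_iff_not_dvd hp]
    intro hd
    exact hkd (Int.natCast_dvd_natCast.mpr hd)
  obtain ⟨m, hm⟩ := Nat.exists_mul_mod_eq_one_of_coprime hcop (by omega)
  set r := m % (2*h+1) with hr
  have hkr : k * r % (2*h+1) = 1 := by
    rw [hr, Nat.mul_mod, Nat.mod_mod, ← Nat.mul_mod]; exact hm.2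
  have hr1 : r < 2*h+1 := Nat.mod_lt _ (by omega)
  have hr0 : 1 ≤ r := by
    by_contra h0
    have : r = 0 := by omega
    rw [this, mul_zero, Nat.zero_mod] at hkr
    exact zero_ne_one hkr
  obtain ⟨s, hs⟩ : ∃ s : ℤ, (k : ℤ) * r = 1 + (2*h+1 : ℕ) * s := by
    refine ⟨((k * r / (2*h+1) : ℕ) : ℤ), ?_⟩
    have := Nat.mod_add_div (k * r) (2*h+1)
    rw [hkr] at this
    exact_mod_cast this.symm
  rcases Nat.lt_or_ge h r with hlt | hge
  · refine ⟨2*h+1-r, ?_⟩
    rw [← key.2 (2*h+1-r) (by omega) (by omega)]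
    have e1 : (k : ℤ) * ((2*h+1-r : ℕ) : ℤ) = -1 + (2*h+1 : ℕ) * (k - s) := by
      rw [Nat.cast_sub hr1.le]
      linear_combination -hs
    rw [e1, Rper', Rneg]
  · refine ⟨r, ?_⟩
    rw [← key.2 r hr0 hge, hs, Rper']

end Fermat.Agent.EC
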