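import Fermat.Agent.EC.Legendre

set_option autoImplicit false

/-! # Inertia-fixed approximations of points -/

namespace Fermat.Agent.EC

open WeierstrassCurve WeierstrassCurve.Affine

variable {k L : Type*} [Field k] [Field L] [Algebra k L] [DecidableEq L]
  (A : ValuationSubring L) {W : WeierstrassCurve.Affine L}

/-- coordinates fixed by inertia -/
def FixedPt (k : Type*) [Field k] [Algebra k L] (A : ValuationSubring L) : W.Point → Prop
  | .zero => True
  | .some x y _ => ∀ σ ∈ A.inertiaSubgroupIn k, σ x = x ∧ σ y = y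

/-- slope criterion for `P - Q` to be in the kernel of reduction -/
theorem E1_sub_of_slope (hW : IntegralFor A.valuation W) {x1 y1 x2 y2 : L}
    {h1 : W.Nonsingular x1 y1} {h2 : W.Nonsingular x2 y2} (hx : x1 ≠ x2)
    (hx1 : A.valuation x1 ≤ 1) (hx2 : A.valuation x2 ≤ 1) (h2v : A.valuation 2 = 1)
    (hs : A.valuation (x1 - x2) <
      A.valuation ((y1 - W.negY x1 y1) + (y2 - W.negY x2 y2))) :
    E1 A.valuation (Point.some x1 y1 h1 - Point.some x2 y2 h2) := by
  have h20 : (2 : L) ≠ 0 := by intro h0; rw [h0, map_zero] at h2v; exact zero_ne_one h2v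
  rw [sub_eq_add_neg, Point.neg_some, Point.add_of_X_ne hx, E1_some, slope_of_X_ne hx]
  have hd : x1 - x2 ≠ 0 := sub_ne_zero.mpr hx
  set η := (y1 - W.negY x1 y1) + (y2 - W.negY x2 y2) with hη
  set ℓ := (y1 - W.negY x2 y2) / (x1 - x2) with hℓ
  have hℓ' : ℓ = η / (2 * (x1 - x2)) - W.a₁ / 2 := by
    rw [hℓ, hη]; simp only [negY]; field_simp; ring
  have hvd : 0 < A.valuation (x1 - x2) := zero_lt_iff.mpr ((map_ne_zero _).mpr hd)
  have hbig : 1 < A.valuation (η / (2 * (x1 - x2))) := by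
    rw [map_div₀, map_mul, h2v, one_mul]
    exact (one_lt_div₀ hvd).mpr hs
  have hsmall : A.valuation (W.a₁ / 2) ≤ 1 := by
    rw [map_div₀, h2v, div_one]; exact hW.a₁
  have hvℓ : 1 < A.valuation ℓ := by
    rw [hℓ', Valuation.map_sub_eq_of_lt_left _ (lt_of_le_of_lt hsmall hbig)]
    exact hbig
  have hℓ0 : 0 < A.valuation ℓ := zero_lt_one.trans hvℓ
  have hℓ2 : 1 < A.valuation (ℓ ^ 2) := by
    rw [map_pow]; exact one_lt_pow₀ hvℓ two_ne_zero
  have hfirst : A.valuation (W.a₁ * ℓ) < A.valuation (ℓ ^ 2) := by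
    rw [map_mul, map_pow, sq]
    calc A.valuation W.a₁ * A.valuation ℓ ≤ 1 * A.valuation ℓ := by gcongr; exact hW.a₁
      _ < A.valuation ℓ * A.valuation ℓ := by gcongr
  have hrest : A.valuation (W.a₂ + x1 + x2) ≤ 1 :=
    v_add_le_one _ (v_add_le_one _ hW.a₂ hx1) hx2
  have : W.addX x1 x2 ℓ = (ℓ ^ 2 + W.a₁ * ℓ) - (W.a₂ + x1 + x2) := by rw [addX]; ring
  rw [this, Valuation.map_sub_eq_of_lt_left, Valuation.map_add_eq_of_lt_left _ hfirst]
  · exact hℓ2
  · rw [Valuation.map_add_eq_of_lt_left _ hfirst]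
    exact lt_of_le_of_lt hrest hℓ2

variable {e1 e2 e3 : L}

/-- Lift to a point with given x-coordinate. -/
theorem exists_fixed_of_x (hW : IntegralFor A.valuation W) (T : TwoTorsionX W e1 e2 e3)
    (hΔ : W.Δ ≠ 0)
    (h2v : A.valuation 2 = 1) (hsq : ∀ a : L, ∃ b, b ^ 2 = a)
    (he1 : ∀ σ ∈ A.inertiaSubgroupIn k, σ e1 = e1) (he2 : ∀ σ ∈ A.inertiaSubgroupIn k, σ e2 = e2)
    (he3 : ∀ σ ∈ A.inertiaSubgroupIn k, σ e3 = e3)
    (ha1 : ∀ σ ∈ A.inertiaSubgroupIn k, σ W.a₁ = W.a₁)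
    (ha3 : ∀ σ ∈ A.inertiaSubgroupIn k, σ W.a₃ = W.a₃)
    {x1 y1 : L} (h1 : W.Nonsingular x1 y1) (hx1 : A.valuation x1 ≤ 1)
    {c : L} (hc0 : c ≠ 0) (hcfix : ∀ σ ∈ A.inertiaSubgroupIn k, σ c = c)
    {x2 : L} (hx2 : A.valuation x2 ≤ 1) (hx2fix : ∀ σ ∈ A.inertiaSubgroupIn k, σ x2 = x2)
    (hg1 : A.valuation ((x1-e1)*(x1-e2)*(x1-e3)) = A.valuation c ^ 2)
    (hg12 : A.valuation ((x1-e1)*(x1-e2)*(x1-e3) - (x2-e1)*(x2-e2)*(x2-e3)) < A.valuation c ^ 2)
    (hx12 : A.valuation (x1 - x2) < A.valuation c) :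
    ∃ Q : W.Point, FixedPt k A Q ∧ E1 A.valuation (Point.some x1 y1 h1 - Q) := by
  have h20 : (2 : L) ≠ 0 := by intro h0; rw [h0, map_zero] at h2v; exact zero_ne_one h2v
  have hv4 : A.valuation 4 = 1 := by
    have : (4 : L) = 2 * 2 := by norm_num
    rw [this, map_mul, h2v, mul_one]
  have hvc : 0 < A.valuation c := zero_lt_iff.mpr ((map_ne_zero _).mpr hc0)
  set η1 := y1 - W.negY x1 y1 with hη1
  have hη1sq : η1 ^ 2 = 4 * ((x1-e1)*(x1-e2)*(x1-e3)) := T.psi_sq' h1.1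
  obtain ⟨b, hb⟩ := hsq (4 * ((x2-e1)*(x2-e2)*(x2-e3)))
  -- choose the sign
  obtain ⟨η2, hη2, hclose⟩ : ∃ η2 : L, η2 ^ 2 = 4 * ((x2-e1)*(x2-e2)*(x2-e3)) ∧
      A.valuation (η1 - η2) < A.valuation c := by
    have hprod : A.valuation ((η1 - b) * (η1 + b)) < A.valuation c * A.valuation c := by
      have : (η1 - b) * (η1 + b)
        = 4 * ((x1-e1)*(x1-e2)*(x1-e3) - (x2-e1)*(x2-e2)*(x2-e3)) := by
        linear_combination hη1sq - hb
      rw [this, map_mul, hv4, one_mul, ← sq]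
      exact hg12
    rcases lt_or_ge (A.valuation (η1 - b)) (A.valuation c) with h | h
    · exact ⟨b, hb, h⟩
    · refine ⟨-b, by rw [neg_sq, hb], ?_⟩
      rw [sub_neg_eq_add]
      by_contra hcon
      rw [not_lt] at hcon
      rw [map_mul] at hprod
      exact absurd (mul_le_mul' h hcon) (not_le.mpr hprod)
  have hvη1 : A.valuation η1 = A.valuation c := by
    have : A.valuation η1 ^ 2 = A.valuation c ^ 2 := by
      rw [← map_pow, hη1sq, map_mul, hv4, one_mul, hg1]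
    exact (pow_left_inj₀ zero_le zero_le two_ne_zero).mp this
  have hvη2 : A.valuation η2 = A.valuation c := by
    have : η2 = η1 - (η1 - η2) := by ring
    rw [this, Valuation.map_sub_eq_of_lt_left _ (by rw [hvη1]; exact hclose), hvη1]
  have hvsum : A.valuation (η1 + η2) = A.valuation c := by
    have : η1 + η2 = 2 * η1 - (η1 - η2) := by ring
    have h2η : A.valuation (2 * η1) = A.valuation c := by rw [map_mul, h2v, one_mul, hvη1]
    rw [this, Valuation.map_sub_eq_of_lt_left _ (by rw [h2η]; exact hclose), h2η]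
  -- fixed by inertia
  have hη2fix : ∀ σ ∈ A.inertiaSubgroupIn k, σ η2 = η2 := by
    intro σ hσ
    have hsq2 : (σ η2) ^ 2 = η2 ^ 2 := by
      rw [← map_pow, hη2]
      simp only [map_mul, map_sub, he1 σ hσ, he2 σ hσ, he3 σ hσ, hx2fix σ hσ, map_ofNat]
    rcases sq_eq_sq_iff_eq_or_eq_neg.mp hsq2 with h | h
    · exact h
    · exfalso
      have hmem : η2 / c ∈ A := by
        rw [← A.valuation_le_one_iff, map_div₀, hvη2, div_self hvc.ne']
      have h3 := inertia_sub_lt_one hσ hmem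
      rw [map_div₀, h, hcfix σ hσ] at h3
      have h4 : -η2 / c - η2 / c = -(2 * (η2 / c)) := by ring
      rw [h4, Valuation.map_neg, map_mul, h2v, one_mul, map_div₀, hvη2, div_self hvc.ne'] at h3
      exact lt_irrefl _ h3
  set y2 := (η2 - W.a₁ * x2 - W.a₃) / 2 with hy2
  have hη2' : y2 - W.negY x2 y2 = η2 := by
    rw [hy2, negY]; field_simp; ring
  have heq2 : W.Equation x2 y2 := by
    rw [equation_iff]
    have h5 : (y2 - W.negY x2 y2) ^ 2 = 4*x2^3 + W.b₂*x2^2 + 2*W.b₄*x2 + W.b₆ := by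
      rw [hη2', T.psi, hη2]
    simp only [negY, b₂, b₄, b₆] at h5
    have h40 : (4 : L) ≠ 0 := by
      intro h0; rw [h0, map_zero] at hv4; exact zero_ne_one hv4
    apply mul_left_cancel₀ h40
    linear_combination h5
  have hns2 : W.Nonsingular x2 y2 := (equation_iff_nonsingular_of_Δ_ne_zero hΔ).mp heq2
  refine ⟨Point.some x2 y2 hns2, ?_, ?_⟩
  · intro σ hσ
    refine ⟨hx2fix σ hσ, ?_⟩
    rw [hy2]
    simp only [map_div₀, map_sub, map_mul, hη2fix σ hσ, hx2fix σ hσ, ha1 σ hσ, ha3 σ hσ,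
      map_ofNat]
  · by_cases hx : x1 = x2
    · subst hx
      have h6 : η1 ^ 2 = η2 ^ 2 := by rw [hη1sq, hη2]
      have h7 : η1 = η2 := by
        rcases sq_eq_sq_iff_eq_or_eq_neg.mp h6 with h | h
        · exact h
        · exfalso
          rw [h] at hvsum
          rw [neg_add_cancel, map_zero] at hvsum
          exact hvc.ne hvsum
      have h8 : y1 = y2 := by
        have : 2 * y1 = 2 * y2 := by
          have e1 : η1 = 2 * y1 + W.a₁ * x1 + W.a₃ := by rw [hη1, negY]; ring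
          have e2 : η2 = 2 * y2 + W.a₁ * x1 + W.a₃ := by rw [← hη2', negY]; ring
          linear_combination h7 - e1 + e2
        exact mul_left_cancel₀ h20 this
      subst h8
      rw [sub_self]
      exact E1_zero _
    · apply E1_sub_of_slope A hW hx hx1 hx2 h2v
      rw [hη2', ← hη1, hvsum]
      exact hx12

/-- Points close to a 2-torsion point. -/
theorem exists_fixed_of_root (hW : IntegralFor A.valuation W) (T : TwoTorsionX W e1 e2 e3)
    (hΔ : W.Δ ≠ 0)
    (h2v : A.valuation 2 = 1)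
    (he1 : ∀ σ ∈ A.inertiaSubgroupIn k, σ e1 = e1)
    (ha1 : ∀ σ ∈ A.inertiaSubgroupIn k, σ W.a₁ = W.a₁)
    (ha3 : ∀ σ ∈ A.inertiaSubgroupIn k, σ W.a₃ = W.a₃)
    (hv1 : A.valuation e1 ≤ 1)
    {x1 y1 : L} (h1 : W.Nonsingular x1 y1) (hx1 : A.valuation x1 ≤ 1)
    (hlt : A.valuation (x1 - e1) < A.valuation (x1 - e2) * A.valuation (x1 - e3)) :
    ∃ Q : W.Point, FixedPt k A Q ∧ E1 A.valuation (Point.some x1 y1 h1 - Q) := by
  have h20 : (2 : L) ≠ 0 := by intro h0; rw [h0, map_zero] at h2v; exact zero_ne_one h2v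
  have hv4 : A.valuation 4 = 1 := by
    have : (4 : L) = 2 * 2 := by norm_num
    rw [this, map_mul, h2v, mul_one]
  have h40 : (4 : L) ≠ 0 := by
    intro h0; rw [h0, map_zero] at hv4; exact zero_ne_one hv4
  set η1 := y1 - W.negY x1 y1 with hη1
  have hη1sq : η1 ^ 2 = 4 * ((x1-e1)*(x1-e2)*(x1-e3)) := T.psi_sq' h1.1
  set y2 := (- W.a₁ * e1 - W.a₃) / 2 with hy2
  have hη2' : y2 - W.negY e1 y2 = 0 := by
    rw [hy2, negY]; field_simp; ring
  have heq2 : W.Equation e1 y2 := by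
    rw [equation_iff]
    have h5 : (y2 - W.negY e1 y2) ^ 2 = 4*e1^3 + W.b₂*e1^2 + 2*W.b₄*e1 + W.b₆ := by
      rw [hη2', T.psi]; ring
    simp only [negY, b₂, b₄, b₆] at h5
    apply mul_left_cancel₀ h40
    linear_combination h5
  have hns2 : W.Nonsingular e1 y2 := (equation_iff_nonsingular_of_Δ_ne_zero hΔ).mp heq2
  refine ⟨Point.some e1 y2 hns2, ?_, ?_⟩
  · intro σ hσ
    refine ⟨he1 σ hσ, ?_⟩
    rw [hy2]
    simp only [map_div₀, map_sub, map_mul, map_neg, he1 σ hσ, ha1 σ hσ, ha3 σ hσ, map_ofNat]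
  · by_cases hx : x1 = e1
    · subst hx
      have h7 : η1 = 0 := by
        have : η1 ^ 2 = 0 := by rw [hη1sq]; ring
        exact pow_eq_zero_iff two_ne_zero |>.mp this
      have h8 : y1 = y2 := by
        have : 2 * y1 = 2 * y2 := by
          have e1 : η1 = 2 * y1 + W.a₁ * x1 + W.a₃ := by rw [hη1, negY]; ring
          have e2 : 0 = 2 * y2 + W.a₁ * x1 + W.a₃ := by rw [← hη2', negY]; ring
          linear_combination h7 - e1 + e2
        exact mul_left_cancel₀ h20 this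
      subst h8
      rw [sub_self]
      exact E1_zero _
    · apply E1_sub_of_slope A hW hx hx1 hv1 h2v
      rw [hη2', add_zero, ← hη1]
      have hpos : 0 < A.valuation (x1 - e1) :=
        zero_lt_iff.mpr ((map_ne_zero _).mpr (sub_ne_zero.mpr hx))
      have : A.valuation (x1 - e1) ^ 2 < A.valuation η1 ^ 2 := by
        rw [← map_pow A.valuation η1, hη1sq, map_mul, hv4, one_mul, map_mul, map_mul, sq,
          mul_assoc]
        exact mul_lt_mul_of_pos_left hlt hpos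
      exact (pow_lt_pow_iff_left₀ zero_le zero_le two_ne_zero).mp this

/-- Every point outside the annulus (or in the annulus, with valuation of a fixed element)
is congruent to an inertia-fixed point modulo the kernel of reduction. -/
theorem exists_fixed_approx (hW : IntegralFor A.valuation W) (T : TwoTorsionX W e1 e2 e3)
    (hΔ : W.Δ ≠ 0)
    (h2v : A.valuation 2 = 1) (hsq : ∀ a : L, ∃ b, b ^ 2 = a)
    (hteich : ∀ a : L, A.valuation a ≤ 1 → ∃ w : L, A.valuation (a - w) < 1 ∧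
      A.valuation w ≤ 1 ∧ ∀ σ ∈ A.inertiaSubgroupIn k, σ w = w)
    (he1 : ∀ σ ∈ A.inertiaSubgroupIn k, σ e1 = e1) (he2 : ∀ σ ∈ A.inertiaSubgroupIn k, σ e2 = e2)
    (he3 : ∀ σ ∈ A.inertiaSubgroupIn k, σ e3 = e3)
    (ha1 : ∀ σ ∈ A.inertiaSubgroupIn k, σ W.a₁ = W.a₁)
    (ha3 : ∀ σ ∈ A.inertiaSubgroupIn k, σ W.a₃ = W.a₃)
    (hv1 : A.valuation e1 ≤ 1) (hv2 : A.valuation e2 ≤ 1) (hv3 : A.valuation e3 ≤ 1)
    (h12 : e1 ≠ e2) (h13 : A.valuation (e1 - e3) = 1) (h23 : A.valuation (e2 - e3) = 1)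
    (P : W.Point)
    (hann : ∀ x y h, P = Point.some x y h → A.valuation (e1 - e2) < A.valuation (x - e1) →
      A.valuation (x - e1) < 1 → ∃ c : L, (∀ σ ∈ A.inertiaSubgroupIn k, σ c = c) ∧
        A.valuation c = A.valuation (x - e1)) :
    ∃ Q : W.Point, FixedPt k A Q ∧ E1 A.valuation (P - Q) := by
  rcases P with _ | ⟨x1, y1, h1⟩
  · refine ⟨0, trivial, ?_⟩
    rw [sub_zero]; trivial
  rcases lt_or_ge 1 (A.valuation x1) with hx1 | hx1
  · refine ⟨0, trivial, ?_⟩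
    rw [sub_zero]; exact hx1
  have hd3 : A.valuation (x1 - e3) ≤ 1 := v_sub_le_one _ hx1 hv3
  have hd1 : A.valuation (x1 - e1) ≤ 1 := v_sub_le_one _ hx1 hv1
  have hd2 : A.valuation (x1 - e2) ≤ 1 := v_sub_le_one _ hx1 hv2
  rcases hd3.lt_or_eq with hd3 | hd3
  · -- near `e₃`
    apply exists_fixed_of_root A hW T.rot hΔ h2v he3 ha1 ha3 hv3 h1 hx1
    have e1' : A.valuation (x1 - e1) = 1 := by
      have : x1 - e1 = (x1 - e3) - (e1 - e3) := by ring
      rw [this, Valuation.map_sub_eq_of_lt_right _ (by rw [h13]; exact hd3), h13]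
    have e2' : A.valuation (x1 - e2) = 1 := by
      have : x1 - e2 = (x1 - e3) - (e2 - e3) := by ring
      rw [this, Valuation.map_sub_eq_of_lt_right _ (by rw [h23]; exact hd3), h23]
    rw [e1', e2', mul_one]
    exact hd3
  set V := A.valuation (e1 - e2) with hV
  have hVpos : 0 < V := zero_lt_iff.mpr ((map_ne_zero _).mpr (sub_ne_zero.mpr h12))
  have hV1 : V ≤ 1 := v_sub_le_one _ hv1 hv2
  have hVs : A.valuation (e2 - e1) = V := by rw [hV, Valuation.map_sub_swap]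
  rcases lt_or_ge (A.valuation (x1 - e1)) V with hl1 | hg1
  · -- near `e₁`
    apply exists_fixed_of_root A hW T hΔ h2v he1 ha1 ha3 hv1 h1 hx1
    have : x1 - e2 = (x1 - e1) + (e1 - e2) := by ring
    rw [hd3, mul_one, this, Valuation.map_add_eq_of_lt_right _ hl1]
    exact hl1
  rcases lt_or_ge (A.valuation (x1 - e2)) V with hl2 | hg2
  · -- near `e₂`
    apply exists_fixed_of_root A hW T.swap12 hΔ h2v he2 ha1 ha3 hv2 h1 hx1
    have : x1 - e1 = (x1 - e2) + (e2 - e1) := by ring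
    rw [hd3, mul_one, this, Valuation.map_add_eq_of_lt_right _ (by rw [hVs]; exact hl2), hVs]
    exact hl2
  -- generic case
  have hd12 : A.valuation (x1 - e2) = A.valuation (x1 - e1) := by
    have e : x1 - e2 = (x1 - e1) + (e1 - e2) := by ring
    rcases hg1.lt_or_eq with hlt | heq
    · rw [e, Valuation.map_add_eq_of_lt_left _ hlt]
    · rw [← heq]
      refine le_antisymm ?_ hg2
      rw [e]
      exact Valuation.map_add_le _ heq.ge le_rfl
  obtain ⟨c, hcfix, hcv⟩ : ∃ c : L, (∀ σ ∈ A.inertiaSubgroupIn k, σ c = c) ∧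
        A.valuation c = A.valuation (x1 - e1) := by
    rcases hg1.lt_or_eq with hlt | heq
    · rcases hd1.lt_or_eq with hlt1 | heq1
      · exact hann x1 y1 h1 rfl hlt hlt1
      · exact ⟨1, fun σ _ => map_one σ, by rw [map_one, heq1]⟩
    · exact ⟨e1 - e2, fun σ hσ => by rw [map_sub, he1 σ hσ, he2 σ hσ], heq⟩
  have hcpos : 0 < A.valuation c := by rw [hcv]; exact lt_of_lt_of_le hVpos hg1
  have hc0 : c ≠ 0 := by rintro rfl; rw [map_zero] at hcpos; exact lt_irrefl _ hcpos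
  have hc1 : A.valuation c ≤ 1 := by rw [hcv]; exact hd1
  obtain ⟨w, hw1, hw2, hw3⟩ := hteich ((x1 - e1) / c) (by rw [map_div₀, hcv, div_self (by rw [← hcv]; exact hcpos.ne')])
  set u := (x1 - e1) / c with hu
  have hu1 : A.valuation u ≤ 1 := by
    rw [hu, map_div₀, hcv, div_self (by rw [← hcv]; exact hcpos.ne')]
  have hxu : x1 = e1 + c * u := by rw [hu]; field_simp; ring
  set f := (e1 - e2) / c with hf
  have hf1 : A.valuation f ≤ 1 := by
    rw [hf, map_div₀, hcv]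
    exact (div_le_one₀ (by rw [← hcv]; exact hcpos)).mpr hg1
  have hfc : e1 - e2 = c * f := by rw [hf]; field_simp
  apply exists_fixed_of_x A hW T hΔ h2v hsq he1 he2 he3 ha1 ha3 h1 hx1 hc0 hcfix
    (x2 := e1 + c * w)
  · exact v_add_le_one _ hv1 (v_mul_le_one _ hc1 hw2)
  · intro σ hσ
    rw [map_add, map_mul, he1 σ hσ, hcfix σ hσ, hw3 σ hσ]
  · rw [map_mul, map_mul, hd12, hd3, hcv, mul_one, sq]
  · have key : (x1-e1)*(x1-e2)*(x1-e3) - (e1 + c * w-e1)*(e1 + c * w-e2)*(e1 + c * w-e3)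
      = c^2 * ((u - w) * (c*(u^2+u*w+w^2) + ((e1-e3) + c*f)*(u+w) + f*(e1-e3))) := by
      have h2' : e2 = e1 - c * f := by rw [← hfc]; ring
      rw [hxu, h2']; ring
    rw [key, map_mul, map_pow]
    have hlt : A.valuation ((u - w) * (c*(u^2+u*w+w^2) + ((e1-e3) + c*f)*(u+w) + f*(e1-e3))) < 1 := by
      apply v_mul_lt_one' _ hw1
      refine v_add_le_one _ (v_add_le_one _ ?_ ?_) ?_
      · exact v_mul_le_one _ hc1 (v_add_le_one _ (v_add_le_one _ (v_pow_le_one _ hu1 2)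
          (v_mul_le_one _ hu1 hw2)) (v_pow_le_one _ hw2 2))
      · exact v_mul_le_one _ (v_add_le_one _ h13.le (v_mul_le_one _ hc1 hf1))
          (v_add_le_one _ hu1 hw2)
      · exact v_mul_le_one _ hf1 h13.le
    exact mul_lt_of_lt_one_right (pow_pos hcpos 2) hlt
  · have : x1 - (e1 + c * w) = c * (u - w) := by rw [hxu]; ring
    rw [this, map_mul]
    exact mul_lt_of_lt_one_right hcpos hw1

end Fermat.Agent.EC
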