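import Fermat.Prelude.Def_FLTPrelim_Ramification
import Mathlib

set_option autoImplicit false

namespace Fermat.Agent.EC

open scoped Pointwise

section inertia

variable {K L : Type*} [Field K] [Field L] [Algebra K L] {A : ValuationSubring L}

theorem decomp_mem_iff {σ : L ≃ₐ[K] L} (hσ : σ ∈ A.decompositionSubgroup K) (x : L) :
    σ x ∈ A ↔ x ∈ A := by
  have h : σ • A = A := hσ
  constructor
  · intro hx
    rw [← h, ValuationSubring.mem_smul_pointwise_iff_exists] at hx
    obtain ⟨s, hs, hsx⟩ := hx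
    have : s = x := σ.injective hsx
    rwa [← this]
  · intro hx
    rw [← h]
    exact ValuationSubring.smul_mem_pointwise_smul σ x A hx

theorem decomp_of_inertia {σ : L ≃ₐ[K] L} (hσ : σ ∈ A.inertiaSubgroupIn K) :
    σ ∈ A.decompositionSubgroup K := by
  obtain ⟨τ, -, rfl⟩ := hσ
  exact τ.2

theorem inertia_sub_lt_one {σ : L ≃ₐ[K] L} (hσ : σ ∈ A.inertiaSubgroupIn K) {x : L}
    (hx : x ∈ A) : A.valuation (σ x - x) < 1 := by
  obtain ⟨τ, hτ, rfl⟩ := hσ
  have h1 : (MulSemiringAction.toRingAut (A.decompositionSubgroup K)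
      (IsLocalRing.ResidueField A)) τ = 1 := hτ
  have h2 := RingEquiv.congr_fun h1 (IsLocalRing.residue A ⟨x, hx⟩)
  have h3 : IsLocalRing.residue A (τ • ⟨x, hx⟩) = IsLocalRing.residue A ⟨x, hx⟩ := h2
  rw [← sub_eq_zero, ← map_sub, IsLocalRing.residue_eq_zero_iff] at h3
  have h4 := (ValuationSubring.valuation_lt_one_iff A _).mp h3
  exact h4

theorem decomp_valuation_eq {σ : L ≃ₐ[K] L} (hσ : σ ∈ A.decompositionSubgroup K) {x y : L}
    (h : A.valuation x = A.valuation y) : A.valuation (σ x) = A.valuation (σ y) := by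
  rcases eq_or_ne y 0 with rfl | hy
  · rw [map_zero, map_eq_zero] at h
    rw [h]
  have hx : x ≠ 0 := by
    rintro rfl
    rw [map_zero] at h
    exact hy ((map_eq_zero _).mp h.symm)
  have h1 : x / y ∈ A := by
    rw [← ValuationSubring.valuation_le_one_iff, map_div₀, h, div_self ((map_ne_zero _).mpr hy)]
  have h2 : y / x ∈ A := by
    rw [← ValuationSubring.valuation_le_one_iff, map_div₀, h, div_self ((map_ne_zero _).mpr hy)]
  rw [← decomp_mem_iff hσ, ← ValuationSubring.valuation_le_one_iff, map_div₀, map_div₀] at h1 h2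
  have hσy : 0 < A.valuation (σ y) := zero_lt_iff.mpr ((map_ne_zero _).mpr ((map_ne_zero σ).mpr hy))
  have hσx : 0 < A.valuation (σ x) := zero_lt_iff.mpr ((map_ne_zero _).mpr ((map_ne_zero σ).mpr hx))
  exact le_antisymm ((div_le_one₀ hσy).mp h1) ((div_le_one₀ hσx).mp h2)

end inertia



section teich

open Polynomial

local notation "Qbar" => AlgebraicClosure ℚ

variable {A : ValuationSubring (AlgebraicClosure ℚ)} {q : ℕ}

theorem residue_natCast_eq_zero (hA : A.LiesOverPrime q) :
    ((q : ℕ) : IsLocalRing.ResidueField A) = 0 := by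
  have h1 : A.valuation ((q : A) : Qbar) < 1 := by
    have : ((q : A) : Qbar) = (q : Qbar) := by push_cast; rfl
    rw [this]
    exact (ValuationSubring.mem_nonunits_iff A).mp hA
  have h2 := (ValuationSubring.valuation_lt_one_iff A _).mpr h1
  have := (IsLocalRing.residue_eq_zero_iff (q : A)).mpr h2
  rwa [map_natCast] at this

/-- every nonzero element of the residue field of `A` is a root of unity of order `N` with
`N = -1` in the residue field. -/
theorem residue_pow_eq_one (hq : q.Prime) (hA : A.LiesOverPrime q)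
    (a : IsLocalRing.ResidueField A) (ha : a ≠ 0) :
    ∃ N : ℕ, N ≠ 0 ∧ a ^ N = 1 ∧ ((N : ℕ) : IsLocalRing.ResidueField A) + 1 = 0 := by
  have hq0 := residue_natCast_eq_zero hA
  haveI : Fact q.Prime := ⟨hq⟩
  haveI hchar : CharP (IsLocalRing.ResidueField A) q := by
    exact (CharP.charP_iff_prime_eq_zero hq).mpr hq0
  letI : Algebra (ZMod q) (IsLocalRing.ResidueField A) := ZMod.algebra _ q
  -- algebraicity
  obtain ⟨b, rfl⟩ := IsLocalRing.residue_surjective a
  have halg : IsAlgebraic ℤ (b : Qbar) := by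
    have : IsAlgebraic ℚ (b : Qbar) := (AlgebraicClosure.isAlgebraic ℚ).isAlgebraic _
    exact (IsFractionRing.isAlgebraic_iff ℤ ℚ Qbar).mpr this
  obtain ⟨f, hf0, hf⟩ := halg
  have hg : aeval (b : Qbar) f.primPart = 0 := aeval_primPart_eq_zero hf0 hf
  have hgA : aeval b f.primPart = 0 := by
    apply Subtype.val_injective
    have : (algebraMap A Qbar) (aeval b f.primPart) = aeval (algebraMap A Qbar b) f.primPart := by
      rw [aeval_algebraMap_apply]
    simpa using this.trans hg
  have hgk : aeval (IsLocalRing.residue A b) (f.primPart.map (Int.castRingHom (ZMod q))) = 0 := by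
    rw [aeval_def, eval₂_map]
    have h1 : (algebraMap (ZMod q) (IsLocalRing.ResidueField A)).comp (Int.castRingHom (ZMod q))
      = (IsLocalRing.residue A).comp (algebraMap ℤ A) := RingHom.ext_int _ _
    rw [h1, ← hom_eval₂]
    rw [aeval_def] at hgA
    rw [hgA, map_zero]
  have hne : f.primPart.map (Int.castRingHom (ZMod q)) ≠ 0 := by
    intro h0
    have hdvd : C (q : ℤ) ∣ f.primPart := by
      rw [C_dvd_iff_dvd_coeff]
      intro i
      have := congrArg (fun p => coeff p i) h0
      simp only [coeff_map, coeff_zero] at this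
      exact (ZMod.intCast_zmod_eq_zero_iff_dvd _ q).mp this
    have := f.isPrimitive_primPart _ hdvd
    rw [Int.isUnit_iff_natAbs_eq] at this
    simp at this
    exact hq.one_lt.ne' this
  have halg' : IsAlgebraic (ZMod q) (IsLocalRing.residue A b) := ⟨_, hne, hgk⟩
  have hint : IsIntegral (ZMod q) (IsLocalRing.residue A b) := halg'.isIntegral
  let E := IntermediateField.adjoin (ZMod q) {IsLocalRing.residue A b}
  haveI : FiniteDimensional (ZMod q) E := IntermediateField.adjoin.finiteDimensional hint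
  haveI : Finite E := Module.finite_of_finite (ZMod q)
  haveI : Fintype E := Fintype.ofFinite E
  let c : E := ⟨IsLocalRing.residue A b, IntermediateField.mem_adjoin_simple_self _ _⟩
  have hc : c ≠ 0 := fun h => ha (congrArg Subtype.val h)
  have h1 := FiniteField.pow_card_sub_one_eq_one c hc
  have hcard : 1 < Fintype.card E := Fintype.one_lt_card
  refine ⟨Fintype.card E - 1, by omega, ?_, ?_⟩
  · have := congrArg (algebraMap E (IsLocalRing.ResidueField A)) h1
    simpa using this
  · have h2 : ((Fintype.card E : ℕ) : E) = 0 := FiniteField.cast_card_eq_zero E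
    have h3 := congrArg (algebraMap E (IsLocalRing.ResidueField A)) h2
    rw [map_natCast, map_zero] at h3
    rw [← h3]
    have : Fintype.card E = Fintype.card E - 1 + 1 := by omega
    conv_rhs => rw [this]
    push_cast; rfl

theorem pow_eq_one_valuation {w : Qbar} {N : ℕ} (hN : N ≠ 0) (h : w ^ N = 1) :
    A.valuation w = 1 := by
  have : A.valuation w ^ N = 1 := by rw [← map_pow, h, map_one]
  exact (pow_eq_one_iff.mp this).resolve_right hN

/-- if `ζ^N = 1`, `ζ ≠ 1`, and `N ≡ -1` then `ζ ≢ 1`. -/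
theorem not_lt_one_of_pow_eq_one {ζ : Qbar} {N : ℕ} (hN0 : N ≠ 0)
    (hN : ((N : ℕ) : IsLocalRing.ResidueField A) + 1 = 0)
    (h : ζ ^ N = 1) (h1 : ζ ≠ 1) : ¬ A.valuation (ζ - 1) < 1 := by
  intro hlt
  have hv : A.valuation ζ = 1 := pow_eq_one_valuation hN0 h
  have hmem : ζ ∈ A := (A.valuation_le_one_iff ζ).mp hv.le
  have hsum : ∑ i ∈ Finset.range N, ζ ^ i = 0 := by
    have := mul_geom_sum ζ N
    rw [h, sub_self] at this
    exact (mul_eq_zero.mp this).resolve_left (sub_ne_zero.mpr h1)
  have hres : IsLocalRing.residue A ⟨ζ, hmem⟩ = 1 := by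
    rw [← sub_eq_zero, ← map_one (IsLocalRing.residue A), ← map_sub,
      IsLocalRing.residue_eq_zero_iff]
    exact (ValuationSubring.valuation_lt_one_iff A _).mpr hlt
  have hsumA : ∑ i ∈ Finset.range N, (⟨ζ, hmem⟩ : A) ^ i = 0 := by
    apply Subtype.val_injective
    push_cast
    exact hsum
  have := congrArg (IsLocalRing.residue A) hsumA
  rw [map_sum, map_zero] at this
  simp only [map_pow, hres, one_pow, Finset.sum_const, Finset.card_range, nsmul_eq_mul,
    mul_one] at this
  rw [this, zero_add] at hN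
  exact one_ne_zero hN

/-- Teichmüller type lifts: every residue class contains an element fixed by inertia. -/
theorem exists_teich (hq : q.Prime) (hA : A.LiesOverPrime q) {a : Qbar}
    (ha : A.valuation a ≤ 1) :
    ∃ w : Qbar, A.valuation (a - w) < 1 ∧ A.valuation w ≤ 1 ∧
      ∀ σ ∈ A.inertiaSubgroupIn ℚ, σ w = w := by
  rcases ha.lt_or_eq with hlt | heq
  · exact ⟨0, by rwa [sub_zero], by simp, fun σ _ => map_zero σ⟩
  have hmem : a ∈ A := (A.valuation_le_one_iff a).mp ha
  have hne : IsLocalRing.residue A ⟨a, hmem⟩ ≠ 0 := by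
    intro h0
    rw [IsLocalRing.residue_eq_zero_iff] at h0
    have := (ValuationSubring.valuation_lt_one_iff A _).mp h0
    exact absurd heq this.ne
  obtain ⟨N, hN0, hpow, hN1⟩ := residue_pow_eq_one hq hA _ hne
  obtain ⟨ζ, hζ⟩ : ∃ ζ : Qbar, IsPrimitiveRoot ζ N := by
    haveI : NeZero N := ⟨hN0⟩
    exact HasEnoughRootsOfUnity.exists_primitiveRoot Qbar N
  have hprod : a ^ N - 1 = ∏ w ∈ nthRootsFinset N (1 : Qbar), (a - w) := by
    have := congrArg (eval a) (X_pow_sub_one_eq_prod (Nat.pos_of_ne_zero hN0) hζ)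
    simpa [eval_prod] using this
  have hlt : A.valuation (a ^ N - 1) < 1 := by
    have h0 : IsLocalRing.residue A (⟨a, hmem⟩ ^ N - 1) = 0 := by
      rw [map_sub, map_pow, hpow, map_one, sub_self]
    rw [IsLocalRing.residue_eq_zero_iff] at h0
    exact (ValuationSubring.valuation_lt_one_iff A _).mp h0
  have hex : ∃ w ∈ nthRootsFinset N (1 : Qbar), A.valuation (a - w) < 1 := by
    by_contra hcon
    push Not at hcon
    rw [hprod, map_prod] at hlt
    have : (1 : A.ValueGroup) ≤ ∏ w ∈ nthRootsFinset N (1 : Qbar), A.valuation (a - w) :=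
      Finset.one_le_prod' hcon
    exact absurd hlt (not_lt.mpr this)
  obtain ⟨w, hw, hwlt⟩ := hex
  rw [mem_nthRootsFinset (Nat.pos_of_ne_zero hN0)] at hw
  have hwv : A.valuation w = 1 := pow_eq_one_valuation hN0 hw
  have hwA : w ∈ A := (A.valuation_le_one_iff w).mp hwv.le
  have hw0 : w ≠ 0 := by rintro rfl; rw [map_zero] at hwv; exact zero_ne_one hwv
  refine ⟨w, hwlt, hwv.le, fun σ hσ => ?_⟩
  have h1 := inertia_sub_lt_one hσ hwA
  by_contra hne'
  apply not_lt_one_of_pow_eq_one (A := A) (ζ := σ w / w) hN0 hN1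
  · rw [div_pow, ← map_pow, hw, map_one, div_one]
  · intro h; exact hne' ((div_eq_one_iff_eq hw0).mp h)
  · have : σ w / w - 1 = (σ w - w) / w := by field_simp
    rw [this, map_div₀, hwv, div_one]
    exact h1

end teich

end Fermat.Agent.EC
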