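import Fermat.Agent.EC.Kummer

set_option autoImplicit false

namespace Fermat.Agent.EC

open WeierstrassCurve WeierstrassCurve.Affine

variable {F : Type*} [Field F] {Γ₀ : Type*} [LinearOrderedCommGroupWithZero Γ₀]

/-- The Weierstrass equation has coefficients integral for `v`. -/
structure IntegralFor (v : Valuation F Γ₀) (W : WeierstrassCurve F) : Prop where
  a₁ : v W.a₁ ≤ 1
  a₂ : v W.a₂ ≤ 1
  a₃ : v W.a₃ ≤ 1
  a₄ : v W.a₄ ≤ 1
  a₆ : v W.a₆ ≤ 1

section basics

theorem gz_mul_lt_one {a b : Γ₀} (ha : a ≤ 1) (hb : b < 1) : a * b < 1 :=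
  lt_of_le_of_lt (by simpa using mul_le_mul_left ha b) hb

variable (v : Valuation F Γ₀)

theorem v_natCast_le_one (n : ℕ) : v (n : F) ≤ 1 := by
  induction n with
  | zero => simp
  | succ n ih => push_cast; exact v.map_add_le ih (by simp)

theorem v_ofNat_le_one (n : ℕ) [n.AtLeastTwo] : v (OfNat.ofNat n : F) ≤ 1 := by
  rw [← Nat.cast_ofNat]; exact v_natCast_le_one v _

theorem v_intCast_le_one (n : ℤ) : v (n : F) ≤ 1 := by
  obtain ⟨m, rfl | rfl⟩ := n.eq_nat_or_neg
  · exact_mod_cast v_natCast_le_one v m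
  · push_cast; rw [Valuation.map_neg]; exact v_natCast_le_one v m

theorem v_mul_le_one {a b : F} (ha : v a ≤ 1) (hb : v b ≤ 1) : v (a * b) ≤ 1 := by
  rw [map_mul]; exact mul_le_one' ha hb

theorem v_mul_lt_one {a b : F} (ha : v a ≤ 1) (hb : v b < 1) : v (a * b) < 1 := by
  rw [map_mul]; exact gz_mul_lt_one ha hb

theorem v_mul_lt_one' {a b : F} (ha : v a < 1) (hb : v b ≤ 1) : v (a * b) < 1 := by
  rw [mul_comm]; exact v_mul_lt_one v hb ha

theorem v_pow_le_one {a : F} (ha : v a ≤ 1) (n : ℕ) : v (a ^ n) ≤ 1 := by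
  rw [map_pow]; exact pow_le_one' ha n

theorem v_pow_lt_one {a : F} (ha : v a < 1) {n : ℕ} (hn : n ≠ 0) : v (a ^ n) < 1 := by
  rw [map_pow]; exact pow_lt_one₀ zero_le ha hn

theorem v_add_lt_one {a b : F} (ha : v a < 1) (hb : v b < 1) : v (a + b) < 1 :=
  v.map_add_lt ha hb

theorem v_add_le_one {a b : F} (ha : v a ≤ 1) (hb : v b ≤ 1) : v (a + b) ≤ 1 :=
  v.map_add_le ha hb

theorem v_sub_le_one {a b : F} (ha : v a ≤ 1) (hb : v b ≤ 1) : v (a - b) ≤ 1 :=
  v.map_sub_le ha hb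

theorem v_sub_lt_one {a b : F} (ha : v a < 1) (hb : v b < 1) : v (a - b) < 1 := by
  rw [sub_eq_add_neg]; exact v_add_lt_one v ha (by rwa [Valuation.map_neg])

theorem v_eq_one_of_sub {a b : F} (ha : v a = 1) (hb : v (a - b) < 1) : v b = 1 := by
  have : b = a - (a - b) := by ring
  rw [this, sub_eq_add_neg, Valuation.map_add_eq_of_lt_left, ha]
  rwa [Valuation.map_neg, ha]

/-- if `t₁+t₂` and `t₁t₂` are in the maximal ideal, so is `t₁` -/
theorem v_root_lt_one {t1 t2 : F} (hs : v (t1 + t2) < 1) (hp : v (t1 * t2) < 1) : v t1 < 1 := by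
  by_contra h
  rw [not_lt] at h
  have h2 : v t2 < 1 := by
    by_contra h'
    rw [not_lt] at h'
    rw [map_mul] at hp
    exact absurd hp (not_lt.mpr (one_le_mul h h'))
  have : t1 = (t1 + t2) - t2 := by ring
  rw [this] at h
  exact absurd (v_sub_lt_one v hs h2) (not_lt.mpr h)

end basics

namespace IntegralFor

variable {v : Valuation F Γ₀} {W : WeierstrassCurve F} (hW : IntegralFor v W)
include hW

theorem b₂ : v W.b₂ ≤ 1 := by
  rw [WeierstrassCurve.b₂]
  exact v_add_le_one v (v_pow_le_one v hW.a₁ _) (v_mul_le_one v (v_ofNat_le_one v _) hW.a₂)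

theorem b₄ : v W.b₄ ≤ 1 := by
  rw [WeierstrassCurve.b₄]
  exact v_add_le_one v (v_mul_le_one v (v_ofNat_le_one v _) hW.a₄) (v_mul_le_one v hW.a₁ hW.a₃)

theorem b₆ : v W.b₆ ≤ 1 := by
  rw [WeierstrassCurve.b₆]
  exact v_add_le_one v (v_pow_le_one v hW.a₃ _) (v_mul_le_one v (v_ofNat_le_one v _) hW.a₆)

theorem b₈ : v W.b₈ ≤ 1 := by
  rw [WeierstrassCurve.b₈]
  refine v_sub_le_one v (v_add_le_one v (v_sub_le_one v (v_add_le_one v ?_ ?_) ?_) ?_) ?_
  · exact v_mul_le_one v (v_pow_le_one v hW.a₁ _) hW.a₆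
  · exact v_mul_le_one v (v_mul_le_one v (v_ofNat_le_one v _) hW.a₂) hW.a₆
  · exact v_mul_le_one v (v_mul_le_one v hW.a₁ hW.a₃) hW.a₄
  · exact v_mul_le_one v hW.a₂ (v_pow_le_one v hW.a₃ _)
  · exact v_pow_le_one v hW.a₄ _

end IntegralFor

/-- common denominator for the addition-subtraction formulas in terms of `t = 1/x` -/
def den (W : WeierstrassCurve F) (t1 t2 : F) : F :=
  1 - W.b₄*(t1*t2) - W.b₆*(t1*t2*(t1+t2)) - W.b₈*(t1*t2)^2

/-- numerator for the sum formula in terms of `t = 1/x` -/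
def num (W : WeierstrassCurve F) (t1 t2 : F) : F :=
  2*(t1+t2) + W.b₂*(t1*t2) + W.b₄*(t1*t2*(t1+t2)) + W.b₆*(t1*t2)^2

theorem v_den {v : Valuation F Γ₀} {W : WeierstrassCurve F} (hW : IntegralFor v W) {t1 t2 : F}
    (h1 : v t1 < 1) (h2 : v t2 < 1) : v (den W t1 t2) = 1 := by
  apply v_eq_one_of_sub v (a := 1) (map_one v)
  have h12 : v (t1 * t2) < 1 := v_mul_lt_one v h1.le h2
  have : 1 - den W t1 t2 = W.b₄*(t1*t2) + W.b₆*(t1*t2*(t1+t2)) + W.b₈*(t1*t2)^2 := by
    rw [den]; ring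
  rw [this]
  refine v_add_lt_one v (v_add_lt_one v ?_ ?_) ?_
  · exact v_mul_lt_one v hW.b₄ h12
  · exact v_mul_lt_one v hW.b₆ (v_mul_lt_one v h12.le (v_add_lt_one v h1 h2))
  · exact v_mul_lt_one v hW.b₈ (v_pow_lt_one v h12 two_ne_zero)

theorem v_num {v : Valuation F Γ₀} {W : WeierstrassCurve F} (hW : IntegralFor v W) {t1 t2 : F}
    (h1 : v t1 < 1) (h2 : v t2 < 1) : v (num W t1 t2) < 1 := by
  have h12 : v (t1 * t2) < 1 := v_mul_lt_one v h1.le h2
  rw [num]
  refine v_add_lt_one v (v_add_lt_one v (v_add_lt_one v ?_ ?_) ?_) ?_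
  · exact v_mul_lt_one v (v_ofNat_le_one v _) (v_add_lt_one v h1 h2)
  · exact v_mul_lt_one v hW.b₂ h12
  · exact v_mul_lt_one v hW.b₄ (v_mul_lt_one v h12.le (v_add_lt_one v h1 h2))
  · exact v_mul_lt_one v hW.b₆ (v_pow_lt_one v h12 two_ne_zero)

section points

variable {W : WeierstrassCurve.Affine F}

/-- the inverse of the x-coordinate -/
noncomputable def tc : W.Point → F
  | .zero => 0
  | .some x _ _ => x⁻¹

/-- the kernel of reduction: points with `v x > 1` and the origin. -/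
def E1 (v : Valuation F Γ₀) : W.Point → Prop
  | .zero => True
  | .some x _ _ => 1 < v x

@[simp] theorem tc_zero : tc (0 : W.Point) = 0 := rfl
@[simp] theorem tc_some {x y : F} (h : W.Nonsingular x y) : tc (.some x y h) = x⁻¹ := rfl
@[simp] theorem E1_zero (v : Valuation F Γ₀) : E1 v (0 : W.Point) := trivial
@[simp] theorem E1_some (v : Valuation F Γ₀) {x y : F} (h : W.Nonsingular x y) :
    E1 v (.some x y h) ↔ 1 < v x := Iff.rfl

@[simp] theorem tc_neg (P : W.Point) : tc (-P) = tc P := by cases P <;> rfl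
@[simp] theorem E1_neg (v : Valuation F Γ₀) (P : W.Point) : E1 v (-P) ↔ E1 v P := by
  cases P <;> rfl

theorem E1.tc_lt_one {v : Valuation F Γ₀} {P : W.Point} (h : E1 v P) : v (tc P) < 1 := by
  cases P with
  | zero => rw [← Point.zero_def]; simp
  | some x y hP => rw [tc_some, map_inv₀]; exact inv_lt_one_of_one_lt₀ h

theorem E1.tc_ne_zero {v : Valuation F Γ₀} {P : W.Point} (h : E1 v P) (hP : P ≠ 0) :
    tc P ≠ 0 := by
  cases P with
  | zero => exact absurd rfl hP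
  | some x y hP =>
    rw [tc_some]
    apply inv_ne_zero
    rintro rfl
    rw [E1_some, map_zero] at h
    exact absurd h (not_lt.mpr zero_le_one)

variable [DecidableEq F]

theorem addSub_of_E1 {v : Valuation F Γ₀} (hW : IntegralFor v W) {P Q : W.Point}
    (hP : E1 v P) (hQ : E1 v Q) :
    E1 v (P + Q) ∧ E1 v (P - Q) ∧
    (tc (P + Q) + tc (P - Q)) * den W (tc P) (tc Q) = num W (tc P) (tc Q) ∧
    (tc (P + Q) * tc (P - Q)) * den W (tc P) (tc Q) = (tc P - tc Q)^2 := by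
  have hden := v_den hW hP.tc_lt_one hQ.tc_lt_one
  have hnum := v_num hW hP.tc_lt_one hQ.tc_lt_one
  have hden0 : den W (tc P) (tc Q) ≠ 0 := by
    intro h0; rw [h0, map_zero] at hden; exact zero_ne_one hden
  rcases P with _ | ⟨x1, y1, h1⟩
  · rw [← Point.zero_def, zero_add, zero_sub, tc_zero, tc_neg, E1_neg]
    refine ⟨hQ, hQ, ?_, ?_⟩ <;> · simp only [den, num]; ring
  rcases Q with _ | ⟨x2, y2, h2⟩
  · rw [← Point.zero_def, add_zero, sub_zero, tc_zero]
    refine ⟨hP, hP, ?_, ?_⟩ <;> · simp only [den, num]; ring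
  have hx1 : x1 ≠ 0 := by
    rintro rfl; rw [E1_some, map_zero] at hP; exact absurd hP (not_lt.mpr zero_le_one)
  have hx2 : x2 ≠ 0 := by
    rintro rfl; rw [E1_some, map_zero] at hQ; exact absurd hQ (not_lt.mpr zero_le_one)
  simp only [tc_some] at hden hnum hden0
  by_cases hx : x1 = x2
  · subst hx
    -- doubling
    have key : ∀ {y : F} (h : W.Nonsingular x1 y), E1 v (.some x1 y h + .some x1 y h) ∧
        tc (.some x1 y h + .some x1 y h) * den W x1⁻¹ x1⁻¹ = num W x1⁻¹ x1⁻¹ := by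
      intro y h
      have hpsi : num W x1⁻¹ x1⁻¹ * x1^4 = 4*x1^3 + W.b₂*x1^2 + 2*W.b₄*x1 + W.b₆ := by
        rw [num]; field_simp; ring
      have hphi : den W x1⁻¹ x1⁻¹ * x1^4 = x1^4 - W.b₄*x1^2 - 2*W.b₆*x1 - W.b₈ := by
        rw [den]; field_simp; ring
      by_cases hy : y = W.negY x1 y
      · rw [Point.add_self_of_Y_eq hy]
        refine ⟨E1_zero v, ?_⟩
        have := psi_sq W h.1
        rw [← hy, sub_self, zero_pow two_ne_zero] at this
        rw [tc_zero, zero_mul]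
        have h4 := hpsi.trans this.symm
        exact ((mul_eq_zero.mp h4).resolve_right (pow_ne_zero 4 hx1)).symm
      · rw [Point.add_self_of_Y_ne hy]
        have := addX_double W h.1 hy
        rw [← hpsi, ← hphi, ← mul_assoc] at this
        have h5 := mul_right_cancel₀ (pow_ne_zero 4 hx1) this
        set X := W.addX x1 x1 (W.slope x1 x1 y y)
        have hX : X ≠ 0 := by rintro h0; rw [h0, zero_mul] at h5; exact hden0 h5.symm
        have hX' : X⁻¹ * den W x1⁻¹ x1⁻¹ = num W x1⁻¹ x1⁻¹ := by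
          rw [← h5]; field_simp
        refine ⟨?_, hX'⟩
        rw [E1_some]
        have h6 : v X * v (num W x1⁻¹ x1⁻¹) = 1 := by rw [← map_mul, h5, hden]
        by_contra hle
        rw [not_lt] at hle
        exact absurd h6 (gz_mul_lt_one hle hnum).ne
    rcases Y_eq_of_X_eq h1.1 h2.1 rfl with hy | hy
    · subst hy
      obtain ⟨k1, k2⟩ := key h1
      rw [sub_self]
      refine ⟨k1, E1_zero v, ?_, ?_⟩
      · simp only [tc_some, tc_zero, add_zero]; exact k2
      · simp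
    · have hneg : (Point.some x1 y1 h1 : W.Point) = - Point.some x1 y2 h2 := by
        rw [Point.neg_some]; simp only [hy]
      obtain ⟨k1, k2⟩ := key h1
      have hsub : (Point.some x1 y1 h1 : W.Point) - Point.some x1 y2 h2
          = Point.some x1 y1 h1 + Point.some x1 y1 h1 := by
        rw [sub_eq_add_neg, ← hneg]
      have hadd : (Point.some x1 y1 h1 : W.Point) + Point.some x1 y2 h2 = 0 := by
        rw [hneg]; exact neg_add_cancel _
      rw [hsub, hadd]
      refine ⟨E1_zero v, k1, ?_, ?_⟩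
      · simp only [tc_some, tc_zero, zero_add]; exact k2
      · simp
  · rw [sub_eq_add_neg, Point.neg_some, Point.add_of_X_ne hx, Point.add_of_X_ne hx]
    have hs := addX_sum W h1.1 h2.1 hx
    have hp := addX_prod W h1.1 h2.1 hx
    set Xp := W.addX x1 x2 (W.slope x1 x2 y1 y2)
    set Xm := W.addX x1 x2 (W.slope x1 x2 y1 (W.negY x2 y2))
    have hd : x1 - x2 ≠ 0 := sub_ne_zero.mpr hx
    have hn : num W x1⁻¹ x2⁻¹ * (x1*x2)^2 = (Xp + Xm) * (x1-x2)^2 := by
      rw [hs, num]; field_simp; ring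
    have hdn : den W x1⁻¹ x2⁻¹ * (x1*x2)^2 = (Xp * Xm) * (x1-x2)^2 := by
      rw [hp, den]; field_simp; ring
    have hXX : Xp * Xm ≠ 0 := by
      intro h0
      rw [h0, zero_mul] at hdn
      exact (mul_ne_zero hden0 (pow_ne_zero 2 (mul_ne_zero hx1 hx2))) hdn
    have hXp : Xp ≠ 0 := left_ne_zero_of_mul hXX
    have hXm : Xm ≠ 0 := right_ne_zero_of_mul hXX
    have hsum : (Xp⁻¹ + Xm⁻¹) * den W x1⁻¹ x2⁻¹ = num W x1⁻¹ x2⁻¹ := by
      apply mul_right_cancel₀ (pow_ne_zero 2 (mul_ne_zero hx1 hx2))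
      rw [mul_assoc, hn, hdn]; field_simp; ring
    have hprod : (Xp⁻¹ * Xm⁻¹) * den W x1⁻¹ x2⁻¹ = (x1⁻¹ - x2⁻¹)^2 := by
      apply mul_right_cancel₀ (pow_ne_zero 2 (mul_ne_zero hx1 hx2))
      rw [mul_assoc, hdn]; field_simp; ring
    have hvs : v (Xp⁻¹ + Xm⁻¹) < 1 := by
      have : v (Xp⁻¹ + Xm⁻¹) * v (den W x1⁻¹ x2⁻¹) = v (num W x1⁻¹ x2⁻¹) := by
        rw [← map_mul, hsum]
      rw [hden, mul_one] at this
      rw [this]; exact hnum
    have hvp : v (Xp⁻¹ * Xm⁻¹) < 1 := by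
      have : v (Xp⁻¹ * Xm⁻¹) * v (den W x1⁻¹ x2⁻¹) = v ((x1⁻¹ - x2⁻¹)^2) := by
        rw [← map_mul, hprod]
      rw [hden, mul_one] at this
      rw [this]
      exact v_pow_lt_one v (v_sub_lt_one v hP.tc_lt_one hQ.tc_lt_one) two_ne_zero
    refine ⟨?_, ?_, ?_, ?_⟩
    · rw [E1_some]
      have := v_root_lt_one v hvs hvp
      rw [map_inv₀] at this
      exact (inv_lt_one₀ (zero_lt_iff.mpr ((map_ne_zero v).mpr hXp))).mp this
    · rw [E1_some]
      have := v_root_lt_one v (t1 := Xm⁻¹) (t2 := Xp⁻¹) (by rwa [add_comm]) (by rwa [mul_comm])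
      rw [map_inv₀] at this
      exact (inv_lt_one₀ (zero_lt_iff.mpr ((map_ne_zero v).mpr hXm))).mp this
    · exact hsum
    · exact hprod

theorem E1.add {v : Valuation F Γ₀} (hW : IntegralFor v W) {P Q : W.Point}
    (hP : E1 v P) (hQ : E1 v Q) : E1 v (P + Q) := (addSub_of_E1 hW hP hQ).1

theorem E1.sub {v : Valuation F Γ₀} (hW : IntegralFor v W) {P Q : W.Point}
    (hP : E1 v P) (hQ : E1 v Q) : E1 v (P - Q) := (addSub_of_E1 hW hP hQ).2.1

theorem E1.nsmul {v : Valuation F Γ₀} (hW : IntegralFor v W) {P : W.Point}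
    (hP : E1 v P) (n : ℕ) : E1 v (n • P) := by
  induction n with
  | zero => rw [zero_smul]; exact E1_zero v
  | succ n ih => rw [succ_nsmul]; exact ih.add hW hP

/-- The kernel of reduction as a subgroup. -/
def E1Subgroup {v : Valuation F Γ₀} (hW : IntegralFor v W) : AddSubgroup W.Point where
  carrier := {P | E1 v P}
  zero_mem' := E1_zero (W := W) v
  add_mem' := fun ha hb => E1.add hW ha hb
  neg_mem' := fun {P} ha => (E1_neg v P).mpr ha

theorem tc_step {v : Valuation F Γ₀} (hW : IntegralFor v W) {P Q : W.Point}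
    (hP : E1 v P) (hP0 : P ≠ 0) (hQ : E1 v Q) (hQ1 : v (tc Q / tc P) ≤ 1) :
    v (tc (Q + P) / tc P + tc (Q - P) / tc P - 2 * (tc Q / tc P + 1)) < 1 := by
  obtain ⟨-, -, h, -⟩ := addSub_of_E1 hW hQ hP
  have htP := hP.tc_lt_one
  have htQ := hQ.tc_lt_one
  have ht0 := hP.tc_ne_zero hP0
  have hden := v_den hW htQ htP
  set t := tc P
  set T := tc Q / t with hT
  have hQt : tc Q = T * t := by rw [hT]; field_simp
  set S := tc (Q + P) / t + tc (Q - P) / t with hS
  have hS' : tc (Q + P) + tc (Q - P) = S * t := by rw [hS]; field_simp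
  rw [hS', hQt] at h
  rw [hQt] at hden htQ
  -- S * den = 2 (T + 1) + small
  have h1 : S * den W (T*t) t = 2*(T+1) + (W.b₂ * (T*t) + W.b₄*((T*t)*(T*t+t)) + W.b₆ * (T*t) * ((T*t)*t)) * 1 := by
    apply mul_right_cancel₀ ht0
    calc S * den W (T*t) t * t = S * t * den W (T*t) t := by ring
      _ = _ := by rw [h, num]; ring
  have h2 : S - 2*(T+1) = ((W.b₂ * (T*t) + W.b₄*((T*t)*(T*t+t)) + W.b₆ * (T*t) * ((T*t)*t))
      + 2*(T+1) * (1 - den W (T*t) t)) / den W (T*t) t := by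
    have hd0 : den W (T*t) t ≠ 0 := by
      intro h0; rw [h0, map_zero] at hden; exact zero_ne_one hden
    field_simp
    linear_combination h1
  rw [h2, map_div₀, hden, div_one]
  have hTt : v (T * t * t) < 1 := v_mul_lt_one v htQ.le htP
  refine v_add_lt_one v (v_add_lt_one v (v_add_lt_one v ?_ ?_) ?_) ?_
  · exact v_mul_lt_one v hW.b₂ htQ
  · exact v_mul_lt_one v hW.b₄ (v_mul_lt_one v htQ.le (v_add_lt_one v htQ htP))
  · exact v_mul_lt_one v (v_mul_le_one v hW.b₆ htQ.le) hTt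
  · refine v_mul_lt_one v (v_mul_le_one v (v_ofNat_le_one v _) (v_add_le_one v hQ1 (map_one v).le)) ?_
    have : 1 - den W (T * t) t = W.b₄*(T*t*t) + W.b₆*(T*t*t*(T*t+t)) + W.b₈*(T*t*t)^2 := by
      rw [den]; ring
    rw [this]
    refine v_add_lt_one v (v_add_lt_one v ?_ ?_) ?_
    · exact v_mul_lt_one v hW.b₄ hTt
    · exact v_mul_lt_one v hW.b₆ (v_mul_lt_one v hTt.le (v_add_lt_one v htQ htP))
    · exact v_mul_lt_one v hW.b₈ (v_pow_lt_one v hTt two_ne_zero)

theorem tc_nsmul {v : Valuation F Γ₀} (hW : IntegralFor v W) {P : W.Point}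
    (hP : E1 v P) (hP0 : P ≠ 0) (n : ℕ) :
    v (tc (n • P) / tc P - (n : F)^2) < 1 := by
  have ht0 := hP.tc_ne_zero hP0
  suffices h : v (tc (n • P) / tc P - (n : F)^2) < 1 ∧
      v (tc ((n+1) • P) / tc P - ((n + 1 : ℕ) : F)^2) < 1 from h.1
  induction n with
  | zero =>
    refine ⟨by simp, ?_⟩
    simp [div_self ht0]
  | succ n ih =>
    refine ⟨ih.2, ?_⟩
    have hle : v (tc ((n+1) • P) / tc P) ≤ 1 := by
      have : tc ((n+1) • P) / tc P = (tc ((n+1) • P) / tc P - ((n + 1 : ℕ) : F)^2)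
        + ((n + 1 : ℕ) : F)^2 := by ring
      rw [this]
      exact v_add_le_one v ih.2.le (v_pow_le_one v (v_natCast_le_one v _) 2)
    have h := tc_step hW hP hP0 (hP.nsmul hW (n+1)) hle
    have e1 : (n+1) • P + P = (n+1+1) • P := (succ_nsmul P (n+1)).symm
    have e2 : (n+1) • P - P = n • P := by rw [succ_nsmul, add_sub_cancel_right]
    rw [e1, e2] at h
    have : tc ((n+1+1) • P) / tc P - ((n+1+1 : ℕ) : F)^2
        = (tc ((n+1+1) • P) / tc P + tc (n • P) / tc P - 2 * (tc ((n+1) • P) / tc P + 1))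
          - (tc (n • P) / tc P - (n : F)^2)
          + 2 * (tc ((n+1) • P) / tc P - ((n+1 : ℕ) : F)^2) := by
      push_cast; ring
    rw [this]
    exact v_add_lt_one v (v_sub_lt_one v h ih.1) (v_mul_lt_one v (v_ofNat_le_one v _) ih.2)

/-- The kernel of reduction has no `n`-torsion if `n` is a unit for `v`. -/
theorem E1.eq_zero_of_nsmul_eq_zero {v : Valuation F Γ₀} (hW : IntegralFor v W) {P : W.Point}
    (hP : E1 v P) {n : ℕ} (hn : v (n : F) = 1) (h : n • P = 0) : P = 0 := by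
  by_contra hP0
  have := tc_nsmul hW hP hP0 n
  rw [h, tc_zero, zero_div, zero_sub, Valuation.map_neg, map_pow, hn, one_pow] at this
  exact lt_irrefl _ this

end points

end Fermat.Agent.EC
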