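import Mathlib.AlgebraicGeometry.EllipticCurve.Affine.Point
import Mathlib.RingTheory.Valuation.Basic

/-!
# Kummer coordinates on a Weierstrass curve

Sum and product formulas for `x(P+Q)`, `x(P-Q)` and the "kernel of reduction" subgroup
for an arbitrary valuation on the ground field.
-/

set_option autoImplicit false

namespace Fermat.Agent.EC

open WeierstrassCurve WeierstrassCurve.Affine

section Identities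

variable {F : Type*} [Field F]

theorem sum_aux (a1 a2 a3 a4 a6 x1 y1 x2 y2 d lp lm : F)
    (e1 : y1^2 + a1*x1*y1 + a3*y1 = x1^3 + a2*x1^2 + a4*x1 + a6)
    (e2 : y2^2 + a1*x2*y2 + a3*y2 = x2^3 + a2*x2^2 + a4*x2 + a6)
    (hd : d = x1 - x2) (hlp : lp * d = y1 - y2) (hlm : lm * d = y1 + y2 + a1*x2 + a3) :
    ((lp^2 + a1*lp - a2 - x1 - x2) + (lm^2 + a1*lm - a2 - x1 - x2)) * d^2
      = 2*x1*x2*(x1+x2) + (a1^2+4*a2)*x1*x2 + (2*a4+a1*a3)*(x1+x2) + (a3^2+4*a6) := by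
  have h1 : ((lp^2 + a1*lp - a2 - x1 - x2) + (lm^2 + a1*lm - a2 - x1 - x2)) * d^2
    = (lp*d)^2 + a1*(lp*d)*d + (lm*d)^2 + a1*(lm*d)*d - 2*(a2+x1+x2)*d^2 := by ring
  rw [h1, hlp, hlm, hd]
  linear_combination 2*e1 + 2*e2

theorem prod_key (a1 a2 a3 a4 a6 x1 y1 x2 y2 F1 F2 G m1 m2 f1 f2 : F)
    (hF1 : F1 = y1^2 + a1*x1*y1 + a3*y1 - f1) (hf1 : f1 = x1^3 + a2*x1^2 + a4*x1 + a6)
    (hF2 : F2 = y2^2 + a1*x2*y2 + a3*y2 - f2) (hf2 : f2 = x2^3 + a2*x2^2 + a4*x2 + a6)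
    (hG : G = f1 + f2 - (a2+x1+x2)*(x1-x2)^2) (hm1 : m1 = a1*x1+a3) (hm2 : m2 = a1*x2+a3) :
    ((y1-y2)^2 + a1*(y1-y2)*(x1-x2) - (a2+x1+x2)*(x1-x2)^2) * ((y1 + y2 + a1*x2 + a3)^2 + a1*(y1 + y2 + a1*x2 + a3)*(x1-x2) - (a2+x1+x2)*(x1-x2)^2) = (x1-x2)^2 * ((x1*x2)^2 - (2*a4+a1*a3)*(x1*x2) - (a3^2+4*a6)*(x1+x2) - (a1^2*a6+4*a2*a6-a1*a3*a4+a2*a3^2-a4^2))
     + F1 * (F1 - 2*F2 + 2*G + m1*m2 - 4*f2 - m2^2) + F2 * (F2 + 2*G + m1*m2 - 4*f1 - m1^2) := by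
  subst hF1 hF2 hG hm1 hm2
  subst hf1 hf2
  ring

theorem prod_aux (a1 a2 a3 a4 a6 x1 y1 x2 y2 d lp lm : F) (hd0 : d ≠ 0)
    (e1 : y1^2 + a1*x1*y1 + a3*y1 = x1^3 + a2*x1^2 + a4*x1 + a6)
    (e2 : y2^2 + a1*x2*y2 + a3*y2 = x2^3 + a2*x2^2 + a4*x2 + a6)
    (hd : d = x1 - x2) (hlp : lp * d = y1 - y2) (hlm : lm * d = y1 + y2 + a1*x2 + a3) :
    ((lp^2 + a1*lp - a2 - x1 - x2) * (lm^2 + a1*lm - a2 - x1 - x2)) * d^2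
      = (x1*x2)^2 - (2*a4+a1*a3)*(x1*x2) - (a3^2+4*a6)*(x1+x2) - (a1^2*a6+4*a2*a6-a1*a3*a4+a2*a3^2-a4^2) := by
  refine mul_left_cancel₀ (pow_ne_zero 2 hd0) ?_
  subst hd
  have h1 : (x1 - x2)^2 * (((lp^2 + a1*lp - a2 - x1 - x2) * (lm^2 + a1*lm - a2 - x1 - x2)) * (x1-x2)^2)
      = ((lp*(x1-x2))^2 + a1*(lp*(x1-x2))*(x1-x2) - (a2+x1+x2)*(x1-x2)^2) * ((lm*(x1-x2))^2 + a1*(lm*(x1-x2))*(x1-x2) - (a2+x1+x2)*(x1-x2)^2) := by ring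
  rw [h1, hlp, hlm, prod_key a1 a2 a3 a4 a6 x1 y1 x2 y2 _ _ _ _ _ _ _ rfl rfl rfl rfl rfl rfl rfl,
    sub_eq_zero.mpr e1, sub_eq_zero.mpr e2]
  ring

variable [DecidableEq F] (W : WeierstrassCurve.Affine F)

/-- x-coordinate of `P + Q` for `x(P) ≠ x(Q)`. -/
theorem addX_sum {x1 y1 x2 y2 : F} (h1 : W.Equation x1 y1) (h2 : W.Equation x2 y2)
    (hx : x1 ≠ x2) :
    (W.addX x1 x2 (W.slope x1 x2 y1 y2) + W.addX x1 x2 (W.slope x1 x2 y1 (W.negY x2 y2)))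
      * (x1 - x2)^2 = 2*x1*x2*(x1+x2) + W.b₂*x1*x2 + W.b₄*(x1+x2) + W.b₆ := by
  rw [slope_of_X_ne hx, slope_of_X_ne hx]
  have hd : x1 - x2 ≠ 0 := sub_ne_zero.mpr hx
  have := sum_aux W.a₁ W.a₂ W.a₃ W.a₄ W.a₆ x1 y1 x2 y2 (x1-x2)
    ((y1 - y2)/(x1-x2)) ((y1 - W.negY x2 y2)/(x1-x2))
    ((equation_iff ..).mp h1) ((equation_iff ..).mp h2) rfl (by field_simp)
    (by rw [negY]; field_simp; ring)
  simp only [addX, b₂, b₄, b₆]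
  exact this

theorem addX_prod {x1 y1 x2 y2 : F} (h1 : W.Equation x1 y1) (h2 : W.Equation x2 y2)
    (hx : x1 ≠ x2) :
    (W.addX x1 x2 (W.slope x1 x2 y1 y2) * W.addX x1 x2 (W.slope x1 x2 y1 (W.negY x2 y2)))
      * (x1 - x2)^2 = (x1*x2)^2 - W.b₄*(x1*x2) - W.b₆*(x1+x2) - W.b₈ := by
  rw [slope_of_X_ne hx, slope_of_X_ne hx]
  have hd : x1 - x2 ≠ 0 := sub_ne_zero.mpr hx
  have := prod_aux W.a₁ W.a₂ W.a₃ W.a₄ W.a₆ x1 y1 x2 y2 (x1-x2)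
    ((y1 - y2)/(x1-x2)) ((y1 - W.negY x2 y2)/(x1-x2)) hd
    ((equation_iff ..).mp h1) ((equation_iff ..).mp h2) rfl (by field_simp)
    (by rw [negY]; field_simp; ring)
  simp only [addX, b₄, b₆, b₈]
  exact this

omit [DecidableEq F] in
/-- `(2y + a₁x + a₃)² = 4x³ + b₂x² + 2b₄x + b₆`. -/
theorem psi_sq {x y : F} (h : W.Equation x y) :
    (y - W.negY x y)^2 = 4*x^3 + W.b₂*x^2 + 2*W.b₄*x + W.b₆ := by
  have := (equation_iff ..).mp h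
  simp only [negY, b₂, b₄, b₆]
  linear_combination 4*this

theorem addX_double {x y : F} (h : W.Equation x y) (hy : y ≠ W.negY x y) :
    W.addX x x (W.slope x x y y) * (4*x^3 + W.b₂*x^2 + 2*W.b₄*x + W.b₆)
      = x^4 - W.b₄*x^2 - 2*W.b₆*x - W.b₈ := by
  rw [slope_of_Y_ne rfl hy, ← psi_sq W h]
  have hd : y - W.negY x y ≠ 0 := sub_ne_zero.mpr hy
  have e := (equation_iff ..).mp h
  have h1 : W.addX x x ((3 * x ^ 2 + 2 * W.a₂ * x + W.a₄ - W.a₁ * y) / (y - W.negY x y)) *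
      (y - W.negY x y) ^ 2 = (3 * x ^ 2 + 2 * W.a₂ * x + W.a₄ - W.a₁ * y)^2
       + W.a₁ * (3 * x ^ 2 + 2 * W.a₂ * x + W.a₄ - W.a₁ * y) * (y - W.negY x y)
       - (W.a₂ + x + x) * (y - W.negY x y)^2 := by
    rw [addX]; field_simp; ring
  rw [h1]
  simp only [negY, b₄, b₆, b₈]
  linear_combination (-W.a₁^2 - 4*W.a₂ - 8*x) * e

end Identities

end Fermat.Agent.EC
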