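import Fermat.Agent.EC.KernelOfReduction
import Fermat.Agent.EC.Inertia
import Fermat.Agent.EC.Annulus

set_option autoImplicit false

/-! # Curves with given 2-torsion: shifted formulas and inertia-fixed approximations -/

namespace Fermat.Agent.EC

open WeierstrassCurve WeierstrassCurve.Affine

variable {F : Type*} [Field F]

/-- `e₁, e₂, e₃` are the x-coordinates of the 2-torsion points. -/
structure TwoTorsionX (W : WeierstrassCurve F) (e1 e2 e3 : F) : Prop where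
  b₂ : W.b₂ = -4*(e1+e2+e3)
  b₄ : W.b₄ = 2*(e1*e2+e1*e3+e2*e3)
  b₆ : W.b₆ = -4*(e1*e2*e3)

namespace TwoTorsionX

variable {W : WeierstrassCurve F} {e1 e2 e3 : F} (T : TwoTorsionX W e1 e2 e3)
include T

theorem swap12 : TwoTorsionX W e2 e1 e3 := 
  ⟨by rw [T.b₂]; ring, by rw [T.b₄]; ring, by rw [T.b₆]; ring⟩

theorem rot : TwoTorsionX W e3 e1 e2 := 
  ⟨by rw [T.b₂]; ring, by rw [T.b₄]; ring, by rw [T.b₆]; ring⟩

theorem psi (x : F) : 4*x^3 + W.b₂*x^2 + 2*W.b₄*x + W.b₆ = 4*((x-e1)*(x-e2)*(x-e3)) := by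
  rw [T.b₂, T.b₄, T.b₆]; ring

theorem psi_sq' {x y : F} (h : Equation W x y) :
    (y - W.toAffine.negY x y)^2 = 4*((x-e1)*(x-e2)*(x-e3)) := by
  rw [← T.psi, ← psi_sq W h]

theorem four_b₈ : 4 * W.b₈ = -16*(e1+e2+e3)*(-(e1*e2*e3)) - 4*(e1*e2+e1*e3+e2*e3)^2 := by
  rw [W.b_relation, T.b₂, T.b₄, T.b₆]; ring

theorem shifted_prod [DecidableEq F] (h4 : (4 : F) ≠ 0) {x1 y1 x2 y2 : F} (h1 : Equation W x1 y1)
    (h2 : Equation W x2 y2) (hx : x1 ≠ x2) :
    (W.toAffine.addX x1 x2 (W.toAffine.slope x1 x2 y1 y2) - e1) *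
    (W.toAffine.addX x1 x2 (W.toAffine.slope x1 x2 y1 (W.toAffine.negY x2 y2)) - e1) * (x1 - x2)^2
      = ((x1-e1)*(x2-e1) - (e1-e2)*(e1-e3))^2 := by
  have hs := addX_sum W h1 h2 hx
  have hp := addX_prod W h1 h2 hx
  apply mul_left_cancel₀ h4
  rw [T.b₂, T.b₄, T.b₆] at hs
  rw [T.b₄, T.b₆] at hp
  linear_combination 4*hp - 4*e1*hs - T.four_b₈

theorem shifted_double [DecidableEq F] (h4 : (4 : F) ≠ 0) {x y : F} (h : Equation W x y)
    (hy : y ≠ W.toAffine.negY x y) :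
    (W.toAffine.addX x x (W.toAffine.slope x x y y) - e1) * (4*((x-e1)*(x-e2)*(x-e3)))
      = ((x-e1)^2 - (e1-e2)*(e1-e3))^2 := by
  have hp := addX_double W h hy
  rw [T.psi] at hp
  apply mul_left_cancel₀ h4
  rw [T.b₄, T.b₆] at hp
  linear_combination 4*hp - T.four_b₈

end TwoTorsionX

section annulusPoints

variable {W : WeierstrassCurve.Affine F} {Γ₀ : Type*} [LinearOrderedCommGroupWithZero Γ₀]

/-- shifted x-coordinate -/
noncomputable def xz (e1 : F) : W.Point → F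
  | .zero => 0
  | .some x _ _ => x - e1

@[simp] theorem xz_some {e1 x y : F} (h : W.Nonsingular x y) : xz e1 (.some x y h) = x - e1 := rfl
@[simp] theorem xz_neg (e1 : F) (P : W.Point) : xz e1 (-P) = xz e1 P := by cases P <;> rfl

variable [DecidableEq F]

theorem xz_addsub {e1 e2 e3 : F} (T : TwoTorsionX W e1 e2 e3) (h4 : (4 : F) ≠ 0) {P Q : W.Point}
    (hP : P ≠ 0) (hQ : Q ≠ 0) (hPQ : P + Q ≠ 0) (hPQ' : P - Q ≠ 0) :
    xz e1 (P + Q) * xz e1 (P - Q) * (xz e1 P - xz e1 Q)^2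
      = (xz e1 P * xz e1 Q - (e1-e2)*(e1-e3))^2 := by
  rcases P with _ | ⟨x1, y1, h1⟩
  · exact absurd rfl hP
  rcases Q with _ | ⟨x2, y2, h2⟩
  · exact absurd rfl hQ
  have hx : x1 ≠ x2 := by
    intro hx
    rcases Point.X_eq_iff (h₁ := h1) (h₂ := h2) |>.mp hx with h | h
    · exact hPQ' (by rw [h, sub_self])
    · exact hPQ (by rw [h, neg_add_cancel])
  rw [sub_eq_add_neg, Point.neg_some, Point.add_of_X_ne hx, Point.add_of_X_ne hx]
  have := T.shifted_prod h4 h1.1 h2.1 hx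
  simp only [xz_some]
  rw [← this]
  ring

theorem xz_double {e1 e2 e3 : F} (T : TwoTorsionX W e1 e2 e3) (h4 : (4 : F) ≠ 0) {P : W.Point}
    (hP : P ≠ 0) (hPP : (2 : ℤ) • P ≠ 0) :
    xz e1 ((2 : ℤ) • P) * (4 * (xz e1 P * (xz e1 P + (e1 - e2)) * (xz e1 P + (e1 - e3))))
      = (xz e1 P ^ 2 - (e1-e2)*(e1-e3))^2 := by
  rcases P with _ | ⟨x, y, h⟩
  · exact absurd rfl hP
  have hy : y ≠ W.negY x y := by
    intro hy
    apply hPP
    rw [two_smul]
    exact Point.add_self_of_Y_eq hy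
  rw [two_smul, Point.add_self_of_Y_ne hy]
  have := T.shifted_double h4 h.1 hy
  simp only [xz_some]
  rw [← this]
  ring

theorem exists_of_annulus {v : Valuation F Γ₀} {e1 e2 e3 : F} (T : TwoTorsionX W e1 e2 e3)
    (h2 : v 2 = 1) (h13 : v (e1 - e3) = 1) {h : ℕ} (hp : (2*h+1).Prime) {P : W.Point}
    (hP0 : P ≠ 0) (hPp : (2*h+1) • P = 0)
    (hann : ∀ n : ℤ, ¬ ((2*h+1 : ℕ) : ℤ) ∣ n →
      v (e1-e2) < v (xz e1 (n • P)) ∧ v (xz e1 (n • P)) < 1) :
    ∃ μ : Γ₀, μ ^ (2*h+1) = v (e1-e2) ^ 2 ∧ ∃ j : ℕ, v (xz e1 P) = μ ^ j := by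
  have hprime : Prime ((2*h+1 : ℕ) : ℤ) := Nat.prime_iff_prime_int.mp hp
  have hv4 : v 4 = 1 := by
    have : (4 : F) = 2 * 2 := by norm_num
    rw [this, map_mul, h2, mul_one]
  have h4 : (4 : F) ≠ 0 := by
    intro h0; rw [h0, map_zero] at hv4; exact zero_ne_one hv4
  have hPp' : ((2*h+1 : ℕ) : ℤ) • P = 0 := by rw [natCast_zsmul]; exact hPp
  have hne : ∀ n : ℤ, ¬ ((2*h+1 : ℕ) : ℤ) ∣ n → n • P ≠ 0 := by
    intro n hn h0
    have hcop : IsCoprime n ((2*h+1 : ℕ) : ℤ) := (hprime.coprime_iff_not_dvd.mpr hn).symm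
    obtain ⟨a, b, hab⟩ := hcop
    apply hP0
    calc P = (1 : ℤ) • P := (one_zsmul P).symm
      _ = (a * n + b * ((2*h+1 : ℕ) : ℤ)) • P := by rw [hab]
      _ = 0 := by rw [add_zsmul, mul_zsmul, mul_zsmul, h0, hPp', zsmul_zero, zsmul_zero, add_zero]
  have hodd : ¬ ((2*h+1 : ℕ) : ℤ) ∣ 2 := by
    intro hd
    have h1 := Int.le_of_dvd (by norm_num) hd
    have h2 : 1 < 2*h+1 := hp.one_lt
    have : 2*h+1 = 2 := by push_cast at h1; omega
    omega
  have := annulus v h (fun n => xz e1 (n • P)) ((e1-e2)*(e1-e3)) (v (e1-e2))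
    (by rw [map_mul, h13, mul_one]) hp
    (by
      intro m n hm hn hmn hmn'
      have h1 := xz_addsub T h4 (hne m hm) (hne n hn)
        (by rw [← add_zsmul]; exact hne _ hmn) (by rw [← sub_smul]; exact hne _ hmn')
      rw [← add_zsmul, ← sub_smul] at h1
      have h3 := congrArg v h1
      rw [map_mul, map_mul, map_pow, map_pow] at h3
      exact h3)
    (by
      intro n hn
      have h2n : ¬ ((2*h+1 : ℕ) : ℤ) ∣ 2 * n := by
        intro hd
        rcases hprime.dvd_or_dvd hd with h' | h'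
        · exact hodd h'
        · exact hn h'
      have h1 := xz_double T h4 (hne n hn) (by rw [← mul_zsmul]; exact hne _ h2n)
      rw [← mul_zsmul] at h1
      have h3 := congrArg v h1
      obtain ⟨k1, k2⟩ := hann n hn
      have e1' : v (xz e1 (n • P) + (e1 - e2)) = v (xz e1 (n • P)) :=
        Valuation.map_add_eq_of_lt_left _ k1
      have e2' : v (xz e1 (n • P) + (e1 - e3)) = 1 := by
        rw [Valuation.map_add_eq_of_lt_right _ (by rw [h13]; exact k2), h13]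
      rw [map_mul, map_mul, map_mul, map_mul, hv4, one_mul, e1', e2', mul_one, ← sq,
        map_pow] at h3
      exact h3)
    hann
    (by
      intro n
      simp only [add_zsmul, hPp', add_zero])
    (by intro n; simp only [neg_zsmul, xz_neg])
  simpa using this

end annulusPoints

end Fermat.Agent.EC
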