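import Fermat.Agent.EC.Approx
import Fermat.Prelude.Def_FLTPrelim_GaloisRep

set_option autoImplicit false

/-! # Unramified torsion -/

namespace Fermat.Agent.EC

open WeierstrassCurve WeierstrassCurve.Affine WeierstrassCurve.Affine.Point

variable {k L : Type*} [Field k] [Field L] [Algebra k L] [DecidableEq L]
  (A : ValuationSubring L) {W : WeierstrassCurve.Affine k}

theorem FixedPt.smul_eq {A : ValuationSubring L} {Q : (W⁄L).Point} (hQ : FixedPt k A Q)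
    {σ : L ≃ₐ[k] L} (hσ : σ ∈ A.inertiaSubgroupIn k) : σ • Q = Q := by
  rcases Q with _ | ⟨x, y, h⟩
  · rfl
  · obtain ⟨h1, h2⟩ := hQ σ hσ
    rw [algEquiv_smul_def, Point.map_some]
    congr 1

theorem E1_smul {A : ValuationSubring L} {P : (W⁄L).Point} (hP : E1 A.valuation P)
    {σ : L ≃ₐ[k] L} (hσ : σ ∈ A.decompositionSubgroup k) : E1 A.valuation (σ • P) := by
  rcases P with _ | ⟨x, y, h⟩
  · trivial
  · rw [algEquiv_smul_def, Point.map_some]
    rw [E1_some] at hP ⊢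
    rw [← not_le, A.valuation_le_one_iff] at hP ⊢
    intro hmem
    exact hP ((decomp_mem_iff hσ x).mp hmem)

/-- the basic criterion: a torsion point congruent to an inertia-fixed point modulo the kernel of
reduction is fixed by inertia. -/
theorem smul_eq_of_approx (hW : IntegralFor A.valuation (W⁄L)) {P Q : (W⁄L).Point}
    (hQ : FixedPt k A Q) (hPQ : E1 A.valuation (P - Q)) {n : ℕ} (hn : A.valuation (n : L) = 1)
    (hP : n • P = 0) {σ : L ≃ₐ[k] L} (hσ : σ ∈ A.inertiaSubgroupIn k) : σ • P = P := by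
  have h1 : σ • P - P = σ • (P - Q) - (P - Q) := by
    rw [smul_sub, hQ.smul_eq hσ]; abel
  have h2 : E1 A.valuation (σ • P - P) := by
    rw [h1]
    exact (E1_smul hPQ (decomp_of_inertia hσ)).sub hW hPQ
  have h3 : n • (σ • P - P) = 0 := by
    have : n • (σ • P) = σ • (n • P) := by
      simpa using (map_nsmul (DistribSMul.toAddMonoidHom (W⁄L).Point σ) n P).symm
    rw [smul_sub, this, hP, smul_zero, sub_self]
  exact sub_eq_zero.mp (h2.eq_zero_of_nsmul_eq_zero hW hn h3)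

variable {e1 e2 e3 : L}

theorem smul_eq_of_torsion (hW : IntegralFor A.valuation (W⁄L)) (T : TwoTorsionX (W⁄L) e1 e2 e3)
    (hΔ : (W⁄L).Δ ≠ 0)
    (h2v : A.valuation 2 = 1) (hsq : ∀ a : L, ∃ b, b ^ 2 = a)
    (hteich : ∀ a : L, A.valuation a ≤ 1 → ∃ w : L, A.valuation (a - w) < 1 ∧
      A.valuation w ≤ 1 ∧ ∀ σ ∈ A.inertiaSubgroupIn k, σ w = w)
    (he1 : ∀ σ ∈ A.inertiaSubgroupIn k, σ e1 = e1) (he2 : ∀ σ ∈ A.inertiaSubgroupIn k, σ e2 = e2)
    (he3 : ∀ σ ∈ A.inertiaSubgroupIn k, σ e3 = e3)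
    (hv1 : A.valuation e1 ≤ 1) (hv2 : A.valuation e2 ≤ 1) (hv3 : A.valuation e3 ≤ 1)
    (h12 : e1 ≠ e2) (h13 : A.valuation (e1 - e3) = 1) (h23 : A.valuation (e2 - e3) = 1)
    {p : ℕ} (hp : p.Prime) (hp2 : p ≠ 2) (hvp : A.valuation (p : L) = 1)
    {α : L} (hαfix : ∀ σ ∈ A.inertiaSubgroupIn k, σ α = α)
    (hα : A.valuation (e1 - e2) = A.valuation α ^ p)
    (P : (W⁄L).Point) (hP : p • P = 0) {σ : L ≃ₐ[k] L} (hσ : σ ∈ A.inertiaSubgroupIn k) :
    σ • P = P := by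
  have ha1 : ∀ σ ∈ A.inertiaSubgroupIn k, σ (W⁄L).a₁ = (W⁄L).a₁ := fun σ _ => σ.commutes _
  have ha3 : ∀ σ ∈ A.inertiaSubgroupIn k, σ (W⁄L).a₃ = (W⁄L).a₃ := fun σ _ => σ.commutes _
  have approx := fun (P : (W⁄L).Point) => exists_fixed_approx (k := k) A hW T hΔ h2v hsq hteich
    he1 he2 he3 ha1 ha3 hv1 hv2 hv3 h12 h13 h23 P
  rcases eq_or_ne P 0 with rfl | hP0
  · rfl
  obtain ⟨h, rfl⟩ : ∃ h, p = 2 * h + 1 := hp.odd_of_ne_two hp2
  have hprime : Prime ((2*h+1 : ℕ) : ℤ) := Nat.prime_iff_prime_int.mp hp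
  have hPp' : ((2*h+1 : ℕ) : ℤ) • P = 0 := by rw [natCast_zsmul]; exact hP
  by_cases hall : ∀ n : ℤ, ¬ ((2*h+1 : ℕ) : ℤ) ∣ n →
      A.valuation (e1-e2) < A.valuation (xz e1 (n • P)) ∧ A.valuation (xz e1 (n • P)) < 1
  · obtain ⟨μ, hμ, j, hj⟩ := exists_of_annulus T h2v h13 hp hP0 hP hall
    have hμα : μ = A.valuation α ^ 2 := by
      rw [hα, pow_right_comm] at hμ
      exact (pow_left_inj₀ zero_le zero_le hp.ne_zero).mp hμ
    obtain ⟨Q, hQ, hPQ⟩ := approx P (by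
      intro x y hxy hPx _ _
      refine ⟨(α ^ 2) ^ j, fun σ hσ => by rw [map_pow, map_pow, hαfix σ hσ], ?_⟩
      rw [map_pow, map_pow, ← hμα, ← hj, hPx, xz_some])
    exact smul_eq_of_approx A hW hQ hPQ hvp hP hσ
  · push Not at hall
    obtain ⟨n, hn, hn'⟩ := hall
    have hnP : (2*h+1) • (n • P) = 0 := by
      rw [← natCast_zsmul, ← mul_zsmul, mul_comm, mul_zsmul, hPp', zsmul_zero]
    obtain ⟨Q, hQ, hPQ⟩ := approx (n • P) (by
      intro x y hxy hPx h1 h2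
      rw [hPx, xz_some] at hn'
      exact absurd h2 (not_lt.mpr (hn' h1)))
    have hfix := smul_eq_of_approx A hW hQ hPQ hvp hnP hσ
    have hcop : IsCoprime n ((2*h+1 : ℕ) : ℤ) := (hprime.coprime_iff_not_dvd.mpr hn).symm
    obtain ⟨a, b, hab⟩ := hcop
    have hPn : P = a • (n • P) := by
      calc P = (1 : ℤ) • P := (one_zsmul P).symm
        _ = (a * n + b * ((2*h+1 : ℕ) : ℤ)) • P := by rw [hab]
        _ = a • (n • P) := by rw [add_zsmul, mul_zsmul, mul_zsmul, hPp', zsmul_zero, add_zero]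
    calc σ • P = σ • (a • (n • P)) := by rw [← hPn]
      _ = a • (σ • (n • P)) := algEquiv_smul_zsmul σ a _
      _ = a • (n • P) := by rw [hfix]
      _ = P := hPn.symm

end Fermat.Agent.EC
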